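import Fermat.Prelude.Def_ModularCurve_LaurentCoeff
import Mathlib.LinearAlgebra.Dual.Lemmas

/-!
# Coefficientwise descent for Laurent series

Coefficientwise descent for Laurent series: a field generated by series with coefficients in `K`
is linearly disjoint from constants.
-/

set_option autoImplicit false

noncomputable section

open Polynomial HahnSeries

namespace FermatAgent.ModFun

open ModularCurve (coeffMap coeffMap_coeff)

section PolyMap

variable {A B : Type*} [Semiring A] [Semiring B]

/-- An additive map applied to all coefficients of a polynomial. -/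
def polyMap (φ : A →+ B) : A[X] →+ B[X] where
  toFun p := p.sum fun i a => monomial i (φ a)
  map_zero' := sum_zero_index _
  map_add' p q := sum_add_index p q _ (by simp) (by simp)

theorem polyMap_monomial (φ : A →+ B) (i : ℕ) (a : A) :
    polyMap φ (monomial i a) = monomial i (φ a) :=
  sum_monomial_index a (fun i a => monomial i (φ a)) (by simp)

@[simp] theorem coeff_polyMap (φ : A →+ B) (p : A[X]) (i : ℕ) :
    (polyMap φ p).coeff i = φ (p.coeff i) := by
  induction p using Polynomial.induction_on' with
  | add p q hp hq => simp [hp, hq]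
  | monomial n a => rw [polyMap_monomial, coeff_monomial, coeff_monomial]; split_ifs <;> simp

theorem natDegree_polyMap_le (φ : A →+ B) (p : A[X]) : (polyMap φ p).natDegree ≤ p.natDegree :=
  natDegree_le_iff_coeff_eq_zero.mpr fun i hi => by
    simp [coeff_eq_zero_of_natDegree_lt hi]

end PolyMap

variable {K L : Type*} [Field K] [Field L] [Algebra K L]

/-- A `K`-linear functional applied coefficientwise. -/
def coeffLin (φ : L →ₗ[K] K) : LaurentSeries L →+ LaurentSeries K where
  toFun x := x.map φ
  map_zero' := by ext; simp
  map_add' x y := by ext; simp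

@[simp] theorem coeffLin_coeff (φ : L →ₗ[K] K) (x : LaurentSeries L) (n : ℤ) :
    (coeffLin φ x).coeff n = φ (x.coeff n) := rfl

theorem coeffLin_mul_coeffMap (φ : L →ₗ[K] K) (x : LaurentSeries L) (y : LaurentSeries K) :
    coeffLin φ (x * coeffMap (algebraMap K L) y) = coeffLin φ x * y := by
  ext n
  rw [coeffLin_coeff,
    HahnSeries.coeff_mul_right' y.isPWO_support (y := coeffMap (algebraMap K L) y)
      (fun k hk h => hk (by simp [h])),
    HahnSeries.coeff_mul_left' x.isPWO_support (x := coeffLin φ x)
      (fun k hk h => hk (by simp [h])), map_sum]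
  refine Finset.sum_congr rfl fun ij _ => ?_
  rw [coeffMap_coeff, ← Algebra.commutes, ← Algebra.smul_def, map_smul, smul_eq_mul,
    coeffLin_coeff, mul_comm]

theorem coeffLin_algebraMap (φ : L →ₗ[K] K) (l : L) :
    coeffLin φ (algebraMap L (LaurentSeries L) l) = algebraMap K (LaurentSeries K) (φ l) := by
  ext n
  rw [coeffLin_coeff, ModularCurve.algebraMap_laurentSeries_eq_single,
    ModularCurve.algebraMap_laurentSeries_eq_single, coeff_single, coeff_single]
  split_ifs <;> simp

theorem exists_functional_ne_zero {x : L} (hx : x ≠ 0) : ∃ φ : L →ₗ[K] K, φ x ≠ 0 := by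
  by_contra h
  push Not at h
  exact hx ((Module.forall_dual_apply_eq_zero_iff K x).mp h)

theorem exists_functional_one : ∃ φ : L →ₗ[K] K, ∀ k : K, φ (algebraMap K L k) = k := by
  obtain ⟨φ, hφ⟩ := (Algebra.linearMap K L).exists_leftInverse_of_injective
    (LinearMap.ker_eq_bot.mpr (algebraMap K L).injective)
  exact ⟨φ, fun k => LinearMap.congr_fun hφ k⟩

theorem coeffLin_mem_adjoin (φ : L →ₗ[K] K) {S : Set (LaurentSeries K)} {z : LaurentSeries L}
    (hz : z ∈ Algebra.adjoin L (coeffMap (algebraMap K L) '' S)) :
    coeffLin φ z ∈ Algebra.adjoin K S := by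
  rw [← Subalgebra.mem_toSubmodule, Algebra.adjoin_eq_span] at hz
  induction hz using Submodule.span_induction generalizing φ with
  | mem y hy =>
    obtain ⟨w, hw, rfl⟩ : y ∈ Submonoid.map (coeffMap (algebraMap K L)).toMonoidHom
        (Submonoid.closure S) := by
      rw [MonoidHom.map_mclosure]; exact hy
    have h1 := coeffLin_mul_coeffMap φ (algebraMap L (LaurentSeries L) 1) w
    rw [coeffLin_algebraMap, map_one, one_mul] at h1
    show coeffLin φ (coeffMap (algebraMap K L) w) ∈ _
    rw [h1]
    exact mul_mem (Subalgebra.algebraMap_mem _ _)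
      (Submonoid.closure_le.mpr (fun _ h => Algebra.subset_adjoin h) hw)
  | zero => simp
  | add a b _ _ ha hb => rw [map_add]; exact add_mem (ha φ) (hb φ)
  | smul l a _ ha =>
    rw [Algebra.smul_def]
    have : coeffLin φ (algebraMap L (LaurentSeries L) l * a)
        = coeffLin (φ ∘ₗ LinearMap.mulLeft K l) a := by
      ext n
      rw [coeffLin_coeff, coeffLin_coeff,
        ModularCurve.algebraMap_laurentSeries_eq_single, coeff_single_mul, sub_zero]
      rfl
    rw [this]
    exact ha _

/-- A series with coefficients in `K` lying in the field generated over `L` by `S` lies in the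
field generated over `K` by `S`. -/
theorem mem_adjoin_of_coeffMap_mem {S : Set (LaurentSeries K)} {x : LaurentSeries K}
    (h : coeffMap (algebraMap K L) x
      ∈ IntermediateField.adjoin L (coeffMap (algebraMap K L) '' S)) :
    x ∈ IntermediateField.adjoin K S := by
  obtain ⟨r, hr, s, hs, hx⟩ := IntermediateField.mem_adjoin_iff_div.mp h
  rcases eq_or_ne s 0 with rfl | hs0
  · have hx0 : x = 0 := by
      ext n
      have := congrArg (fun z : LaurentSeries L => z.coeff n) hx
      simpa using this
    rw [hx0]; exact zero_mem _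
  obtain ⟨n, hn⟩ : ∃ n, s.coeff n ≠ 0 := by
    by_contra hc
    push Not at hc
    exact hs0 (HahnSeries.ext (funext hc))
  obtain ⟨φ, hφ⟩ := exists_functional_ne_zero (K := K) hn
  have hs' : coeffLin φ s ≠ 0 := fun h0 => hφ (by simpa using congrArg (fun z => z.coeff n) h0)
  have h1 : coeffLin φ r = coeffLin φ s * x := by
    rw [← coeffLin_mul_coeffMap, hx, mul_div_cancel₀ _ hs0]
  rw [show x = coeffLin φ r / coeffLin φ s by rw [eq_div_iff hs', h1, mul_comm]]
  exact div_mem (IntermediateField.algebra_adjoin_le_adjoin K S (coeffLin_mem_adjoin φ hr))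
    (IntermediateField.algebra_adjoin_le_adjoin K S (coeffLin_mem_adjoin φ hs))

end FermatAgent.ModFun

end
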