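import Fermat.Prelude.Def_ModularCurve_LaurentCoeff

/-!
# Shortcut instances for the base change

Shortcut instances for the base change of subfields of `ℚ((q))`; the values are those found by
instance search, only faster.
-/

set_option autoImplicit false

noncomputable section

namespace FermatAgent.ModFun

open ModularCurve (laurentBaseChange)

/-- The search for this instance costs seconds. -/
instance (priority := 1500) laurentSubfieldAlgebra {K : Type*} [Field K]
    (F : IntermediateField K (LaurentSeries K)) : Algebra K F :=
  SubalgebraClass.toAlgebra F

instance (priority := 1500) laurentSubfieldModule {K : Type*} [Field K]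
    (F : IntermediateField K (LaurentSeries K)) : Module K F :=
  Algebra.toModule

instance (priority := 1500) laurentSubfieldSMul {K : Type*} [Field K]
    (F : IntermediateField K (LaurentSeries K)) : SMul K F :=
  (SubalgebraClass.toAlgebra F).toSMul

variable (L : Type*) [Field L] [Algebra ℚ L] (F₀ : IntermediateField ℚ (LaurentSeries ℚ))

instance laurentBaseChangeAlgebra : Algebra L (laurentBaseChange L F₀) :=
  SubalgebraClass.toAlgebra (laurentBaseChange L F₀)

instance laurentBaseChangeModule : Module L (laurentBaseChange L F₀) :=
  Algebra.toModule

instance laurentBaseChangeSMul : SMul L (laurentBaseChange L F₀) :=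
  Algebra.toSMul

instance laurentBaseChangeField : Field (laurentBaseChange L F₀) :=
  (laurentBaseChange L F₀).toField

end FermatAgent.ModFun

end
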