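import Fermat.Agent.ModCurve.Fun.ModEq
import Fermat.Agent.ModCurve.Fun.Descent
import Fermat.Agent.ModCurve.Fun.Instances
import Fermat.Prelude.Thm_ModularCurve_coeffMap_qExpand

/-!
# The field of modular functions in characteristic zero

The field of modular functions over a field of characteristic zero: generation by `j` and
`j(N ·)` and degree over the `j`-line.
-/

set_option autoImplicit false

noncomputable section

open UpperHalfPlane hiding I
open Polynomial CongruenceSubgroup
open scoped MatrixGroups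

namespace FermatAgent.ModFun

open ModularCurve (coeffMap coeffEmb laurentBaseChange modularFunctionFieldFull jqModC jqNModC
  qExpand jq)

section BEval

variable (K : Type*) [Field K] (N : ℕ) [NeZero N]

/-- `P(X, Y) ↦ P(j, j(N ·))` in Laurent series. -/
def bEval : K[X][X] →+* LaurentSeries K :=
  eval₂RingHom (aeval (jqModC K) : K[X] →ₐ[K] LaurentSeries K).toRingHom (jqNModC K N)

theorem bEval_monomial (i : ℕ) (a : K[X]) :
    bEval K N (monomial i a) = aeval (jqModC K) a * jqNModC K N ^ i := by
  simp [bEval]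

theorem bEval_C (a : K[X]) : bEval K N (C a) = aeval (jqModC K) a := by simp [bEval]

theorem bEval_X : bEval K N X = jqNModC K N := by simp [bEval]

theorem coeffMap_bEval {L : Type*} [Field L] (f : K →+* L) (P : K[X][X]) :
    coeffMap f (bEval K N P) = bEval L N (P.map (mapRingHom f)) := by
  have h : (coeffMap f).comp (bEval K N) = (bEval L N).comp (mapRingHom (mapRingHom f)) := by
    refine Polynomial.ringHom_ext (fun p => ?_) ?_
    · simp only [RingHom.comp_apply, bEval_C, coe_mapRingHom, Polynomial.map_C]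
      induction p using Polynomial.induction_on' with
      | add a b ha hb => simp [ha, hb]
      | monomial n a =>
        simp only [aeval_monomial, Polynomial.map_monomial, map_mul, map_pow,
          ModularCurve.coeffMap_jqModC, ModularCurve.algebraMap_laurentSeries_eq_single,
          ModularCurve.coeffMap_single]
    · simp [bEval_X, ModularCurve.coeffMap_jqNModC]
  exact RingHom.congr_fun h P

theorem coeffLin_bEval {L : Type*} [Field L] [Algebra K L] (φ : L →ₗ[K] K) (P : L[X][X]) :
    coeffLin φ (bEval L N P) = bEval K N (polyMap (polyMap φ.toAddMonoidHom) P) := by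
  induction P using Polynomial.induction_on' with
  | add p q hp hq => simp [hp, hq]
  | monomial i a =>
    rw [polyMap_monomial, bEval_monomial, bEval_monomial]
    induction a using Polynomial.induction_on' with
    | add p q hp hq => simp [add_mul, hp, hq]
    | monomial k c =>
      rw [polyMap_monomial, aeval_monomial, aeval_monomial, mul_assoc, mul_assoc,
        ← ModularCurve.coeffMap_jqModC (algebraMap K L),
        ← ModularCurve.coeffMap_jqNModC (algebraMap K L) N, ← map_pow, ← map_pow, ← map_mul,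
        coeffLin_mul_coeffMap, coeffLin_algebraMap]
      rfl

end BEval

theorem qLaurent_mem_cuspRing_aeval (P : ℂ[X][X]) (N : ℕ) [NeZero N] :
    (fun τ => (P.map (evalRingHom (jFun τ))).eval (jd N τ)) ∈ cuspRing ∧
      qLaurent (fun τ => (P.map (evalRingHom (jFun τ))).eval (jd N τ)) = bEval ℂ N P := by
  let jW : cuspRing := ⟨jFun, jFun_mem_cuspRing⟩
  let JW : cuspRing := ⟨jd N, mem_cuspRing_comp_dil jFun_mem_cuspRing N⟩
  let Ψ : ℂ[X][X] →+* cuspRing := eval₂RingHom (aeval jW : ℂ[X] →ₐ[ℂ] cuspRing).toRingHom JW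
  have h1 : ∀ τ, ((Pi.evalRingHom (fun _ : ℍ => ℂ) τ).comp cuspRing.val.toRingHom).comp Ψ
      = (evalRingHom (jd N τ)).comp (mapRingHom (evalRingHom (jFun τ))) := by
    intro τ
    refine Polynomial.ringHom_ext (fun p => ?_) (by simp [Ψ, JW])
    simp only [RingHom.comp_apply, coe_mapRingHom, Polynomial.map_C, Ψ, coe_eval₂RingHom, eval₂_C]
    induction p using Polynomial.induction_on' with
    | add a b ha hb => simp only [map_add] at ha hb ⊢; rw [ha, hb]
    | monomial n a => simp [jW]
  have h2 : qLaurentHom.toRingHom.comp Ψ = bEval ℂ N := by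
    refine Polynomial.ringHom_ext (fun p => ?_) ?_
    · simp only [RingHom.comp_apply, bEval_C, Ψ, coe_eval₂RingHom, eval₂_C]
      show qLaurentHom (aeval jW p) = _
      rw [← aeval_algHom_apply]
      simp [jW, qLaurent_jFun]
    · rw [RingHom.comp_apply, bEval_X, show Ψ X = JW by simp [Ψ]]
      exact qLaurent_jd N
  have he : ((Ψ P : cuspRing) : ℍ → ℂ)
      = fun τ => (P.map (evalRingHom (jFun τ))).eval (jd N τ) :=
    funext fun τ => RingHom.congr_fun (h1 τ) P
  rw [← he]
  exact ⟨(Ψ P).2, RingHom.congr_fun h2 P⟩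

section Relations

variable (N : ℕ) [NeZero N]

theorem eq_zero_of_bEval_complex {P : ℂ[X][X]} (hdeg : P.natDegree < (Gamma0 N).index)
    (h : bEval ℂ N P = 0) : P = 0 := by
  obtain ⟨hm, he⟩ := qLaurent_mem_cuspRing_aeval P N
  refine eq_zero_of_eval_jd hdeg fun τ => ?_
  have h0 : (⟨_, hm⟩ : cuspRing) = 0 := qLaurentHom_injective (by
    rw [qLaurentHom_apply, he, h, map_zero])
  exact congrFun (congrArg Subtype.val h0) τ

theorem eq_zero_of_bEval_rat {P : ℚ[X][X]} (hdeg : P.natDegree < (Gamma0 N).index)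
    (h : bEval ℚ N P = 0) : P = 0 := by
  refine Polynomial.map_injective (mapRingHom (algebraMap ℚ ℂ))
    (Polynomial.map_injective (algebraMap ℚ ℂ) (algebraMap ℚ ℂ).injective) ?_
  rw [Polynomial.map_zero]
  exact eq_zero_of_bEval_complex N (natDegree_map_le.trans_lt hdeg) (by
    rw [← coeffMap_bEval, h, map_zero])

variable (L : Type*) [Field L] [Algebra ℚ L]

theorem eq_zero_of_bEval {P : L[X][X]} (hdeg : P.natDegree < (Gamma0 N).index)
    (h : bEval L N P = 0) : P = 0 := by
  ext i k
  rw [coeff_zero, coeff_zero]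
  by_contra hc
  obtain ⟨φ, hφ⟩ := exists_functional_ne_zero (K := ℚ) hc
  have h0 : polyMap (polyMap φ.toAddMonoidHom) P = 0 :=
    eq_zero_of_bEval_rat N ((natDegree_polyMap_le _ _).trans_lt hdeg)
      (by rw [← coeffLin_bEval, h, map_zero])
  exact hφ (by simpa using congrArg (fun Q => (Q.coeff i).coeff k) h0)

theorem exists_monic_bEval_rat :
    ∃ Φ : ℚ[X][X], Φ.Monic ∧ Φ.natDegree = (Gamma0 N).index ∧ bEval ℚ N Φ = 0 := by
  obtain ⟨Φ, hm, hd, hΦ⟩ := exists_modEq N
  obtain ⟨φ, hφ⟩ := exists_functional_one (K := ℚ) (L := ℂ)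
  set Φ' := polyMap (polyMap φ.toAddMonoidHom) Φ
  have hdle : Φ'.natDegree ≤ (Gamma0 N).index := hd ▸ natDegree_polyMap_le _ _
  have hc : Φ'.coeff (Gamma0 N).index = 1 := by
    ext k
    rw [coeff_polyMap, coeff_polyMap, ← hd, coeff_natDegree, hm.leadingCoeff, coeff_one, coeff_one]
    have := hφ 1
    rw [map_one] at this
    split_ifs <;> simp [this]
  refine ⟨Φ', monic_of_natDegree_le_of_coeff_eq_one _ hdle hc,
    le_antisymm hdle (le_natDegree_of_ne_zero (by simp [hc])), ?_⟩
  rw [← coeffLin_bEval]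
  obtain ⟨hmem, he⟩ := qLaurent_mem_cuspRing_aeval Φ N
  have h0 : (⟨_, hmem⟩ : cuspRing) = 0 := Subtype.ext (funext fun τ => by
    show (Φ.map (evalRingHom (jFun τ))).eval (jd N τ) = 0
    rw [hΦ, eval_prod, Finset.prod_eq_zero (Finset.mem_univ ((1 : SL(2, ℤ)) : CosetSpace N))]
    simp [conj_one (jd_mem_levelRing dvd_rfl)])
  rw [← he, ← qLaurentHom_apply ⟨_, hmem⟩, h0, map_zero, map_zero]

/-- `Φ_N` with rational coefficients. -/
def modPolyQ : ℚ[X][X] := (exists_monic_bEval_rat N).choose

theorem modPolyQ_monic : (modPolyQ N).Monic := (exists_monic_bEval_rat N).choose_spec.1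

theorem natDegree_modPolyQ : (modPolyQ N).natDegree = (Gamma0 N).index :=
  (exists_monic_bEval_rat N).choose_spec.2.1

/-- `Φ_N` over any field of characteristic zero. -/
def modPolyK : L[X][X] := (modPolyQ N).map (mapRingHom (algebraMap ℚ L))

theorem bEval_modPolyK : bEval L N (modPolyK N L) = 0 := by
  rw [modPolyK, ← coeffMap_bEval, modPolyQ, (exists_monic_bEval_rat N).choose_spec.2.2, map_zero]

theorem modPolyK_monic : (modPolyK N L).Monic := (modPolyQ_monic N).map _

theorem natDegree_modPolyK : (modPolyK N L).natDegree = (Gamma0 N).index := by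
  rw [modPolyK, (modPolyQ_monic N).natDegree_map, natDegree_modPolyQ]

end Relations

theorem index_pos (N : ℕ) [NeZero N] : 0 < (Gamma0 N).index :=
  Nat.pos_of_ne_zero Subgroup.FiniteIndex.index_ne_zero

section Generation

theorem coeffEmb_qExpand (L : Type*) [Field L] [Algebra ℚ L] (d : ℕ) [NeZero d] :
    coeffEmb L (qExpand ℚ d jq) = qExpand L d (jqModC L) := by
  rw [coeffEmb, ModularCurve.coeffMap_qExpand, ← ModularCurve.jqModC_rat,
    ModularCurve.coeffMap_jqModC]

theorem coeffEmb_jq (L : Type*) [Field L] [Algebra ℚ L] : coeffEmb L jq = jqModC L := by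
  rw [coeffEmb, ← ModularCurve.jqModC_rat, ModularCurve.coeffMap_jqModC]

theorem qLaurent_mem_pair {N : ℕ} [NeZero N] {f : ℍ → ℂ} (hf : f ∈ levelRing N) :
    qLaurent f ∈ ModularCurve.modularFunctionFieldC ℂ N := by
  let jW : cuspRing := ⟨jFun, jFun_mem_cuspRing⟩
  let JW : cuspRing := ⟨jd N, mem_cuspRing_comp_dil jFun_mem_cuspRing N⟩
  have himg : ∀ g ∈ Algebra.adjoin ℂ ({jFun, jd N} : Set (ℍ → ℂ)), g ∈ cuspRing ∧
      qLaurent g ∈ ModularCurve.modularFunctionFieldC ℂ N := by
    intro g hg
    induction hg using Algebra.adjoin_induction with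
    | mem x hx =>
      rcases hx with rfl | rfl
      · exact ⟨jW.2, by rw [qLaurent_jFun]; exact ModularCurve.jqModC_mem ℂ N⟩
      · exact ⟨JW.2, by rw [qLaurent_jd]; exact ModularCurve.jqNModC_mem ℂ N⟩
    | algebraMap c =>
      exact ⟨cuspRing.algebraMap_mem c, by
        rw [qLaurent_algebraMap]; exact IntermediateField.algebraMap_mem _ c⟩
    | add x y _ _ hx hy =>
      refine ⟨add_mem hx.1 hy.1, ?_⟩
      have := add_mem hx.2 hy.2
      rwa [← qLaurentHom_apply ⟨_, hx.1⟩, ← qLaurentHom_apply ⟨_, hy.1⟩, ← map_add] at this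
    | mul x y _ _ hx hy =>
      refine ⟨mul_mem hx.1 hy.1, ?_⟩
      have := mul_mem hx.2 hy.2
      rwa [← qLaurentHom_apply ⟨_, hx.1⟩, ← qLaurentHom_apply ⟨_, hy.1⟩, ← map_mul] at this
  obtain ⟨p, hp, q, hq, hq0, he⟩ := exists_mul_mem_adjoin (⟨f, hf⟩ : levelRing N)
  obtain ⟨hp1, hp2⟩ := himg p hp
  obtain ⟨hq1, hq2⟩ := himg q hq
  have hq' : qLaurent q ≠ 0 := fun h => hq0
    (congrArg Subtype.val (qLaurentHom_injective (a₁ := ⟨q, hq1⟩) (a₂ := 0)
      (h.trans (map_zero qLaurentHom).symm)))
  have hfq : qLaurent f * qLaurent q = qLaurent p := by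
    rw [← qLaurentHom_apply ⟨f, levelRing_le_cuspRing N hf⟩, ← qLaurentHom_apply ⟨q, hq1⟩,
      ← qLaurentHom_apply ⟨p, hp1⟩, ← map_mul]
    exact congrArg _ (Subtype.ext he)
  rw [eq_div_of_mul_eq hq' hfq]
  exact div_mem hp2 hq2

theorem modularFunctionFieldFull_le (N : ℕ) [NeZero N] :
    modularFunctionFieldFull N ≤ ModularCurve.modularFunctionField N := by
  rw [modularFunctionFieldFull, IntermediateField.adjoin_le_iff]
  rintro x ⟨d, hne, hd, rfl⟩
  refine mem_adjoin_of_coeffMap_mem (L := ℂ) ?_
  have h := qLaurent_mem_pair (N := N) (jd_mem_levelRing (d := d) hd)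
  rw [qLaurent_jd, ModularCurve.modularFunctionFieldC] at h
  rw [Set.image_pair]
  rw [← coeffEmb_qExpand ℂ d, ← coeffEmb_jq ℂ,
    show jqNModC ℂ N = coeffEmb ℂ (qExpand ℚ N jq) from (coeffEmb_qExpand ℂ N).symm] at h
  exact h

/-- The function field is generated by `j` and `j(N ·)`. -/
theorem modularFunctionFieldFull_eq (N : ℕ) [NeZero N] :
    modularFunctionFieldFull N = ModularCurve.modularFunctionField N :=
  le_antisymm (modularFunctionFieldFull_le N) (ModularCurve.modularFunctionField_le_full N)

variable (L : Type*) [Field L] [Algebra ℚ L] (N : ℕ) [NeZero N]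

theorem coeffEmb_mem_adjoin {S : Set (LaurentSeries ℚ)} {x : LaurentSeries ℚ}
    (hx : x ∈ IntermediateField.adjoin ℚ S) :
    coeffEmb L x ∈ IntermediateField.adjoin L (coeffEmb L '' S) := by
  induction hx using IntermediateField.adjoin_induction with
  | mem x hx => exact IntermediateField.subset_adjoin _ _ ⟨x, hx, rfl⟩
  | algebraMap c =>
    rw [ModularCurve.algebraMap_laurentSeries_eq_single, coeffEmb, ModularCurve.coeffMap_single,
      ← ModularCurve.algebraMap_laurentSeries_eq_single]
    exact IntermediateField.algebraMap_mem _ _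
  | add a b _ _ ha hb => rw [map_add]; exact add_mem ha hb
  | inv a _ ha => rw [map_inv₀]; exact inv_mem ha
  | mul a b _ _ ha hb => rw [map_mul]; exact mul_mem ha hb

theorem laurentBaseChange_full_eq :
    laurentBaseChange L (modularFunctionFieldFull N) = ModularCurve.modularFunctionFieldC L N := by
  refine le_antisymm ?_ ?_
  · rw [laurentBaseChange, IntermediateField.adjoin_le_iff]
    rintro _ ⟨x, hx, rfl⟩
    rw [modularFunctionFieldFull_eq, ModularCurve.modularFunctionField] at hx
    have := coeffEmb_mem_adjoin L hx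
    rwa [Set.image_pair, coeffEmb_jq, coeffEmb_qExpand] at this
  · rw [ModularCurve.modularFunctionFieldC, IntermediateField.adjoin_le_iff]
    rintro _ (rfl | rfl)
    · rw [← coeffEmb_jq]
      exact ModularCurve.coeffEmb_mem_laurentBaseChange L
        (ModularCurve.modularFunctionField_le_full N (ModularCurve.jq_mem N))
    · rw [jqNModC, ← coeffEmb_qExpand]
      exact ModularCurve.coeffEmb_mem_laurentBaseChange L
        (ModularCurve.jqd_mem_full N dvd_rfl)

theorem laurentBaseChange_full_eq_fullC :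
    laurentBaseChange L (modularFunctionFieldFull N)
      = ModularCurve.modularFunctionFieldFullC L N := by
  refine le_antisymm (by rw [laurentBaseChange_full_eq]
                         exact ModularCurve.modularFunctionFieldC_le_full L N) ?_
  rw [ModularCurve.modularFunctionFieldFullC, IntermediateField.adjoin_le_iff]
  rintro _ ⟨d, hne, hd, rfl⟩
  rw [← coeffEmb_qExpand]
  exact ModularCurve.coeffEmb_mem_laurentBaseChange L (ModularCurve.jqd_mem_full N hd)

end Generation

end FermatAgent.ModFun

end
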