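import Fermat.Agent.ModCurve.Fun.Degree
import Fermat.Agent.ModCurve.Fun.Descent
import Mathlib.Analysis.Complex.Polynomial.Basic
import Mathlib.FieldTheory.IsAlgClosed.AlgebraicClosure

/-!
# Change of constants in the modular function field
-/

set_option autoImplicit false

noncomputable section

open UpperHalfPlane hiding I
open CongruenceSubgroup
open scoped MatrixGroups

namespace FermatAgent.ModFun

open ModularCurve (coeffMap coeffEmb laurentBaseChange modularFunctionFieldFull jqModC jqNModC jq)

section General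

variable {L L' : Type*} [Field L] [Field L'] [Algebra ℚ L] [Algebra ℚ L']
variable (F₀ : IntermediateField ℚ (LaurentSeries ℚ))

theorem coeffMap_comp_coeffEmb (f : L →ₐ[ℚ] L') (y : LaurentSeries ℚ) :
    coeffMap (f : L →+* L') (coeffEmb L y) = coeffEmb L' y := by
  rw [coeffEmb, ModularCurve.coeffMap_coeffMap]
  exact ModularCurve.coeffMap_congr (RingHom.ext fun c => f.commutes c) y

omit [Algebra ℚ L] [Algebra ℚ L'] in
theorem coeffMap_algebraMap_eq (f : L →+* L') (a : L) :
    coeffMap f (algebraMap L (LaurentSeries L) a) = algebraMap L' (LaurentSeries L') (f a) := by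
  rw [ModularCurve.algebraMap_laurentSeries_eq_single, ModularCurve.algebraMap_laurentSeries_eq_single,
    ModularCurve.coeffMap_single]

theorem coeffMap_mem_laurentBaseChange (f : L →ₐ[ℚ] L') {x : LaurentSeries L}
    (hx : x ∈ laurentBaseChange L F₀) :
    coeffMap (f : L →+* L') x ∈ laurentBaseChange L' F₀ := by
  induction hx using IntermediateField.adjoin_induction with
  | mem y hy =>
    obtain ⟨z, hz, rfl⟩ := hy
    rw [coeffMap_comp_coeffEmb]
    exact ModularCurve.coeffEmb_mem_laurentBaseChange L' hz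
  | algebraMap c =>
    rw [coeffMap_algebraMap_eq]
    exact IntermediateField.algebraMap_mem _ _
  | add a b _ _ ha hb => rw [map_add]; exact add_mem ha hb
  | inv a _ ha => rw [map_inv₀]; exact inv_mem ha
  | mul a b _ _ ha hb => rw [map_mul]; exact mul_mem ha hb

/-- A series over `L` which lies in the base change to a bigger field lies in the one to `L`. -/
theorem coeffMap_mem_laurentBaseChange_iff (f : L →ₐ[ℚ] L') {x : LaurentSeries L} :
    coeffMap (f : L →+* L') x ∈ laurentBaseChange L' F₀ ↔ x ∈ laurentBaseChange L F₀ := by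
  refine ⟨fun h => ?_, coeffMap_mem_laurentBaseChange F₀ f⟩
  let : Algebra L L' := f.toRingHom.toAlgebra
  refine mem_adjoin_of_coeffMap_mem (L := L') ?_
  rw [Set.image_image]
  show coeffMap (f : L →+* L') x ∈ IntermediateField.adjoin L'
    ((fun y => coeffMap (f : L →+* L') (coeffEmb L y)) '' (F₀ : Set (LaurentSeries ℚ)))
  simp only [coeffMap_comp_coeffEmb]
  exact h

theorem coeffEmb_mem_laurentBaseChange_iff (L : Type*) [Field L] [Algebra ℚ L]
    {y : LaurentSeries ℚ} : coeffEmb L y ∈ laurentBaseChange L F₀ ↔ y ∈ F₀ := by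
  refine ⟨fun h => ?_, ModularCurve.coeffEmb_mem_laurentBaseChange L⟩
  have := mem_adjoin_of_coeffMap_mem (K := ℚ) (L := L) (S := (F₀ : Set (LaurentSeries ℚ))) h
  rwa [IntermediateField.adjoin_self] at this

/-- Extension of constants. -/
def baseChangeHom (f : L →ₐ[ℚ] L') : laurentBaseChange L F₀ →+* laurentBaseChange L' F₀ :=
  ((coeffMap (f : L →+* L')).comp (laurentBaseChange L F₀).val.toRingHom).codRestrict _ fun x =>
    coeffMap_mem_laurentBaseChange F₀ f x.2

@[simp] theorem coe_baseChangeHom (f : L →ₐ[ℚ] L') (x : laurentBaseChange L F₀) :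
    (baseChangeHom F₀ f x : LaurentSeries L') = coeffMap (f : L →+* L') (x : LaurentSeries L) := rfl

theorem baseChangeHom_algebraMap (f : L →ₐ[ℚ] L') (a : L) :
    baseChangeHom F₀ f (algebraMap L (laurentBaseChange L F₀) a)
      = algebraMap L' (laurentBaseChange L' F₀) (f a) :=
  Subtype.ext (coeffMap_algebraMap_eq (f : L →+* L') a)

theorem baseChangeHom_injective (f : L →ₐ[ℚ] L') : Function.Injective (baseChangeHom F₀ f) :=
  RingHom.injective _

end General

section Modular

variable {L L' : Type*} [Field L] [Field L'] [Algebra ℚ L] [Algebra ℚ L'] (N : ℕ) [NeZero N]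

theorem baseChangeHom_jBar (f : L →ₐ[ℚ] L') :
    baseChangeHom (modularFunctionFieldFull N) f (jBar L N) = jBar L' N :=
  Subtype.ext (ModularCurve.coeffMap_jqModC _)

theorem baseChangeHom_jNBar (f : L →ₐ[ℚ] L') :
    baseChangeHom (modularFunctionFieldFull N) f (jNBar L N) = jNBar L' N :=
  Subtype.ext (ModularCurve.coeffMap_jqNModC _ N)

/-- An invariant function with rational expansion lies in the function field over `ℚ`. -/
theorem mem_full_of_qLaurent_eq {f : ℍ → ℂ} (hf : f ∈ levelRing N) {y : LaurentSeries ℚ}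
    (h : qLaurent f = coeffEmb ℂ y) : y ∈ modularFunctionFieldFull N := by
  rw [← coeffEmb_mem_laurentBaseChange_iff _ ℂ, ← h, laurentBaseChange_full_eq]
  exact qLaurent_mem_pair hf

end Modular

/-- A fixed embedding `ℚbar → ℂ`. -/
def qbarToC : AlgebraicClosure ℚ →ₐ[ℚ] ℂ :=
  haveI : Algebra.IsAlgebraic ℚ (AlgebraicClosure ℚ) := AlgebraicClosure.isAlgebraic ℚ
  IsAlgClosed.lift

end FermatAgent.ModFun

end
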