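import Fermat.Agent.ModCurve.Fun.Descent
import Fermat.Agent.ModCurve.Fun.Instances
import Fermat.Agent.ModCurve.Fun.BaseChange
import Mathlib.RingTheory.TensorProduct.Maps
import Mathlib.RingTheory.Localization.FractionRing
import Mathlib.LinearAlgebra.TensorProduct.Basis
import Fermat.Prelude.Def_ModularCurve_ArithmeticGalois

/-!
# Functoriality of the base change

Functoriality of the base change of subfields of `ℚ((q))`: the base change is the fraction field
of `L ⊗[ℚ] F₀`.
-/

set_option autoImplicit false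

noncomputable section

set_option synthInstance.maxHeartbeats 80000

open scoped TensorProduct

namespace FermatAgent.ModFun

open ModularCurve (coeffMap coeffEmb laurentBaseChange)

variable (L : Type*) [Field L] [Algebra ℚ L]
variable (F₀ F₁ : IntermediateField ℚ (LaurentSeries ℚ))

/-- The map `y ↦ coeffEmb L y` into the base change. -/
def toBaseChange : F₀ →+* laurentBaseChange L F₀ :=
  ((coeffEmb L).comp F₀.toSubfield.subtype).codRestrict (laurentBaseChange L F₀) fun y =>
    ModularCurve.coeffEmb_mem_laurentBaseChange L y.2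

@[simp] theorem coe_toBaseChange (y : F₀) :
    (toBaseChange L F₀ y : LaurentSeries L) = coeffEmb L (y : LaurentSeries ℚ) := rfl

theorem toBaseChange_algebraMap (r : ℚ) :
    toBaseChange L F₀ (algebraMap ℚ F₀ r)
      = algebraMap L (laurentBaseChange L F₀) (algebraMap ℚ L r) :=
  RingHom.congr_fun (RingHom.ext_rat ((toBaseChange L F₀).comp (algebraMap ℚ F₀))
    ((algebraMap L (laurentBaseChange L F₀)).comp (algebraMap ℚ L))) r

/-- `L ⊗ F₀ → F_L`. -/
def mulBaseChange : L ⊗[ℚ] F₀ →ₐ[L] laurentBaseChange L F₀ :=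
  letI : Algebra ℚ (laurentBaseChange L F₀) :=
    ((algebraMap L (laurentBaseChange L F₀)).comp (algebraMap ℚ L)).toAlgebra
  letI : SMul ℚ (laurentBaseChange L F₀) := Algebra.toSMul
  haveI : IsScalarTower ℚ L (laurentBaseChange L F₀) := IsScalarTower.of_algebraMap_eq' rfl
  Algebra.TensorProduct.lift (Algebra.ofId L (laurentBaseChange L F₀))
    ({ toBaseChange L F₀ with commutes' := toBaseChange_algebraMap L F₀ } :
      F₀ →ₐ[ℚ] laurentBaseChange L F₀)
    fun _ _ => Commute.all _ _

theorem mulBaseChange_tmul (l : L) (y : F₀) :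
    mulBaseChange L F₀ (l ⊗ₜ y) = algebraMap L _ l * toBaseChange L F₀ y := by
  simp [mulBaseChange, Algebra.ofId_apply]

theorem mulBaseChange_injective : Function.Injective (mulBaseChange L F₀) := by
  rw [injective_iff_map_eq_zero]
  intro z hz
  let b := Module.Free.chooseBasis ℚ F₀
  obtain ⟨c, rfl⟩ := TensorProduct.eq_repr_basis_right b z
  have hc : ∀ i, c i = 0 := by
    intro i
    by_contra hi
    obtain ⟨φ, hφ⟩ := exists_functional_ne_zero (K := ℚ) hi
    have h1 := congrArg (fun x : laurentBaseChange L F₀ => coeffLin φ (x : LaurentSeries L)) hz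
    simp only [map_finsuppSum, mulBaseChange_tmul, ZeroMemClass.coe_zero, map_zero] at h1
    rw [Finsupp.sum, AddSubmonoidClass.coe_finsetSum, map_sum] at h1
    have h2 : ∑ j ∈ c.support, (φ (c j)) • b j = 0 := by
      apply Subtype.ext
      rw [AddSubmonoidClass.coe_finsetSum, ZeroMemClass.coe_zero, ← h1]
      refine Finset.sum_congr rfl fun j _ => ?_
      rw [Algebra.smul_def (φ (c j)), MulMemClass.coe_mul, MulMemClass.coe_mul, coe_toBaseChange,
        coeffEmb, coeffLin_mul_coeffMap]
      show _ = coeffLin φ (algebraMap L (LaurentSeries L) (c j)) * _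
      rw [coeffLin_algebraMap, eq_ratCast, eq_ratCast, SubfieldClass.coe_ratCast]
    exact hφ (linearIndependent_iff'.mp b.linearIndependent _ _ h2 i
      (Finsupp.mem_support_iff.mpr hi))
  simp [show c = 0 from Finsupp.ext hc]

instance : IsDomain (L ⊗[ℚ] F₀) :=
  (mulBaseChange_injective L F₀).isDomain (mulBaseChange L F₀).toRingHom

/-- Every element of `F_L` is a quotient of two elements of `L ⊗ F₀`. -/
theorem exists_mulBaseChange_div (x : laurentBaseChange L F₀) :
    ∃ a b, x = mulBaseChange L F₀ a / mulBaseChange L F₀ b := by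
  obtain ⟨r, hr, s, hs, hx⟩ := IntermediateField.mem_adjoin_iff_div.mp x.2
  have hle : Algebra.adjoin L (⇑(coeffEmb L) '' (F₀ : Set (LaurentSeries ℚ)))
      ≤ ((laurentBaseChange L F₀).val.comp (mulBaseChange L F₀)).range := by
    rw [Algebra.adjoin_le_iff]
    rintro _ ⟨y, hy, rfl⟩
    exact ⟨1 ⊗ₜ ⟨y, hy⟩, by simp [mulBaseChange_tmul]⟩
  obtain ⟨a, rfl⟩ := hle hr
  obtain ⟨b, rfl⟩ := hle hs
  exact ⟨a, b, Subtype.ext hx⟩

theorem isFractionRing_tensor :
    letI := (mulBaseChange L F₀).toRingHom.toAlgebra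
    IsFractionRing (L ⊗[ℚ] F₀) (laurentBaseChange L F₀) := by
  let := (mulBaseChange L F₀).toRingHom.toAlgebra
  have : FaithfulSMul (L ⊗[ℚ] F₀) (laurentBaseChange L F₀) :=
    (faithfulSMul_iff_algebraMap_injective _ _).mpr (mulBaseChange_injective L F₀)
  refine IsFractionRing.of_field _ _ fun z => ?_
  exact exists_mulBaseChange_div L F₀ z

variable {F₀ F₁}

/-- The pre-composition used to extend a map of fields over `ℚ`. -/
def tensorMap (g : F₀ →ₐ[ℚ] F₁) : L ⊗[ℚ] F₀ →ₐ[L] laurentBaseChange L F₁ :=
  (mulBaseChange L F₁).comp (Algebra.TensorProduct.map (AlgHom.id L L) g)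

theorem tensorMap_injective (g : F₀ →ₐ[ℚ] F₁) : Function.Injective (tensorMap L g) := by
  refine (mulBaseChange_injective L F₁).comp ?_
  show Function.Injective (g.toLinearMap.lTensor L)
  exact Module.Flat.lTensor_preserves_injective_linearMap _ g.toRingHom.injective

/-- A map of subfields of `ℚ((q))` extended `L`-linearly. -/
def baseChangeMap (g : F₀ →ₐ[ℚ] F₁) : laurentBaseChange L F₀ →ₐ[L] laurentBaseChange L F₁ :=
  letI := (mulBaseChange L F₀).toRingHom.toAlgebra
  haveI : IsScalarTower L (L ⊗[ℚ] F₀) (laurentBaseChange L F₀) :=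
    IsScalarTower.of_algebraMap_eq fun c => ((mulBaseChange L F₀).commutes c).symm
  haveI := isFractionRing_tensor L F₀
  IsFractionRing.liftAlgHom (tensorMap_injective L g)

theorem baseChangeMap_mulBaseChange (g : F₀ →ₐ[ℚ] F₁) (z : L ⊗[ℚ] F₀) :
    baseChangeMap L g (mulBaseChange L F₀ z) = tensorMap L g z := by
  let := (mulBaseChange L F₀).toRingHom.toAlgebra
  have : IsScalarTower L (L ⊗[ℚ] F₀) (laurentBaseChange L F₀) :=
    IsScalarTower.of_algebraMap_eq fun c => ((mulBaseChange L F₀).commutes c).symm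
  have := isFractionRing_tensor L F₀
  exact IsFractionRing.lift_algebraMap (A := L ⊗[ℚ] F₀) (tensorMap_injective L g) z

@[simp] theorem baseChangeMap_toBaseChange (g : F₀ →ₐ[ℚ] F₁) (y : F₀) :
    baseChangeMap L g (toBaseChange L F₀ y) = toBaseChange L F₁ (g y) := by
  have h : toBaseChange L F₀ y = mulBaseChange L F₀ (1 ⊗ₜ y) := by simp [mulBaseChange_tmul]
  rw [h, baseChangeMap_mulBaseChange]
  simp [tensorMap, mulBaseChange_tmul]

/-- Two `L`-algebra maps out of `F_L` agreeing on `F₀` are equal. -/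
theorem algHom_ext_toBaseChange {K : Type*} [Field K] [Algebra L K]
    {φ ψ : laurentBaseChange L F₀ →ₐ[L] K}
    (h : ∀ y : F₀, φ (toBaseChange L F₀ y) = ψ (toBaseChange L F₀ y)) : φ = ψ := by
  have h' : ∀ z, φ (mulBaseChange L F₀ z) = ψ (mulBaseChange L F₀ z) := fun z => by
    induction z using TensorProduct.induction_on with
    | zero => simp
    | tmul l y =>
      rw [mulBaseChange_tmul, map_mul, map_mul, h, AlgHom.commutes, AlgHom.commutes]
    | add a b ha hb => simp only [map_add, ha, hb]
  ext x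
  obtain ⟨a, b, rfl⟩ := exists_mulBaseChange_div L F₀ x
  rw [map_div₀, map_div₀, h', h']

variable {F₂ : IntermediateField ℚ (LaurentSeries ℚ)}

/-- Extension of a field isomorphism. -/
def baseChangeEquiv (e : F₀ ≃ₐ[ℚ] F₁) : laurentBaseChange L F₀ ≃ₐ[L] laurentBaseChange L F₁ :=
  AlgEquiv.ofAlgHom (baseChangeMap L e.toAlgHom) (baseChangeMap L e.symm.toAlgHom)
    (algHom_ext_toBaseChange L fun y => by simp) (algHom_ext_toBaseChange L fun y => by simp)

@[simp] theorem baseChangeEquiv_toBaseChange (e : F₀ ≃ₐ[ℚ] F₁) (y : F₀) :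
    baseChangeEquiv L e (toBaseChange L F₀ y) = toBaseChange L F₁ (e y) :=
  baseChangeMap_toBaseChange L e.toAlgHom y

variable {L} {L' : Type*} [Field L'] [Algebra ℚ L']

/-- Extension of constants commutes with extended maps; in particular coefficientwise Galois
action does. -/
theorem baseChangeHom_baseChangeMap (f : L →ₐ[ℚ] L') (g : F₀ →ₐ[ℚ] F₁)
    (x : laurentBaseChange L F₀) :
    baseChangeHom F₁ f (baseChangeMap L g x) = baseChangeMap L' g (baseChangeHom F₀ f x) := by
  have hto : ∀ (F : IntermediateField ℚ (LaurentSeries ℚ)) (y : F),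
      baseChangeHom F f (toBaseChange L F y) = toBaseChange L' F y := fun F y =>
    Subtype.ext (coeffMap_comp_coeffEmb f (y : LaurentSeries ℚ))
  have h : ∀ z, baseChangeHom F₁ f (baseChangeMap L g (mulBaseChange L F₀ z))
      = baseChangeMap L' g (baseChangeHom F₀ f (mulBaseChange L F₀ z)) := fun z => by
    induction z using TensorProduct.induction_on with
    | zero => simp
    | tmul l y =>
      simp only [mulBaseChange_tmul, map_mul, AlgHom.commutes, baseChangeMap_toBaseChange,
        baseChangeHom_algebraMap, hto]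
    | add a b ha hb => simp only [map_add, ha, hb]
  obtain ⟨a, b, rfl⟩ := exists_mulBaseChange_div L F₀ x
  simp only [map_div₀, h]

theorem arithmeticRingAut_baseChangeMap (σ : L ≃ₐ[ℚ] L) (g : F₀ →ₐ[ℚ] F₁)
    (x : laurentBaseChange L F₀) :
    ModularCurve.arithmeticRingAut F₁ σ (baseChangeMap L g x)
      = baseChangeMap L g (ModularCurve.arithmeticRingAut F₀ σ x) :=
  baseChangeHom_baseChangeMap σ.toAlgHom g x

end FermatAgent.ModFun

end
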