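import Fermat.Agent.ModCurve.Fun.FieldC
import Fermat.Agent.ModCurve.Fun.Functorial

/-!
# The Atkin-Lehner involution of the function field

The Atkin-Lehner involution of the function field of `X₀(q N')`, `q` a prime not dividing `N'`.
-/

set_option autoImplicit false

noncomputable section

open UpperHalfPlane hiding I
open Function CongruenceSubgroup
open scoped MatrixGroups ModularForm Manifold

namespace FermatAgent.ModFun

open ModularCurve (coeffEmb laurentBaseChange modularFunctionFieldFull jqModC qExpand jq)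

variable {q N' : ℕ}

/-- A matrix `(1 y; N' q w)` of determinant one. -/
def alGamma (hco : q.Coprime N') : SL(2, ℤ) :=
  ⟨!![1, -Int.gcdB q N'; (N' : ℤ), q * Int.gcdA q N'], by
    rw [Matrix.det_fin_two_of]
    have h := Int.gcd_eq_gcd_ab (q : ℤ) N'
    rw [Int.gcd_natCast_natCast, hco.gcd_eq_one, Nat.cast_one] at h
    linear_combination -h⟩

/-- The lower left entry of `γ T^k γ⁻¹`. -/
theorem conj_T_zpow_lower_left (γ : SL(2, ℤ)) (k : ℤ) :
    (γ * ModularGroup.T ^ k * γ⁻¹) 1 0 = -(k * γ 1 0 ^ 2) := by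
  rw [Matrix.SpecialLinearGroup.coe_mul, Matrix.SpecialLinearGroup.coe_mul,
    ModularGroup.coe_T_zpow, Matrix.SpecialLinearGroup.coe_inv, Matrix.adjugate_fin_two]
  simp [Matrix.mul_apply, Fin.sum_univ_two]
  ring

variable [NeZero q] (hco : q.Coprime N')

/-- The Atkin-Lehner map `τ ↦ (q τ + y)/(q N' τ + q w)`. -/
def alMap (τ : ℍ) : ℍ := alGamma hco • dil q τ

theorem jd_alMap {d : ℕ} [NeZero d] (hd : d ∣ N') (τ : ℍ) :
    haveI : NeZero (q * d) := ⟨Nat.mul_ne_zero (NeZero.ne q) (NeZero.ne d)⟩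
    jd d (alMap hco τ) = jd (q * d) τ := by
  have : NeZero (q * d) := ⟨Nat.mul_ne_zero (NeZero.ne q) (NeZero.ne d)⟩
  have : NeZero (d * q) := ⟨Nat.mul_ne_zero (NeZero.ne d) (NeZero.ne q)⟩
  rw [alMap, jd_smul_of_mem (by simpa [alGamma] using Int.natCast_dvd_natCast.mpr hd)]
  simp only [jd, comp_apply, dil_dil]
  congr 1
  ext1
  simp [mul_comm]

theorem jd_mul_alMap {d : ℕ} [NeZero d] (hd : d ∣ N') (τ : ℍ) :
    haveI : NeZero (q * d) := ⟨Nat.mul_ne_zero (NeZero.ne q) (NeZero.ne d)⟩
    jd (q * d) (alMap hco τ) = jd d τ := by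
  have : NeZero (q * d) := ⟨Nat.mul_ne_zero (NeZero.ne q) (NeZero.ne d)⟩
  let γ : SL(2, ℤ) := ⟨!![(q : ℤ), -Int.gcdB q N'; (N' : ℤ), Int.gcdA q N'], by
    rw [Matrix.det_fin_two_of]
    have h := Int.gcd_eq_gcd_ab (q : ℤ) N'
    rw [Int.gcd_natCast_natCast, hco.gcd_eq_one, Nat.cast_one] at h
    linear_combination -h⟩
  have he : dil (q * d) (alMap hco τ) = dil d (γ • τ) := by
    ext1
    rw [coe_dil, coe_dil, alMap, coe_specialLinearGroup_apply, coe_dil,
      coe_specialLinearGroup_apply]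
    simp only [γ, alGamma, Matrix.of_apply, Matrix.cons_val', Matrix.cons_val_zero,
      Matrix.cons_val_one, Matrix.cons_val_fin_one, algebraMap_int_eq, eq_intCast, Int.cast_mul,
      Int.cast_natCast, Complex.ofReal_mul, Complex.ofReal_natCast, Complex.ofReal_intCast,
      Int.cast_one, Complex.ofReal_one, one_mul]
    have hq : (q : ℂ) ≠ 0 := Nat.cast_ne_zero.mpr (NeZero.ne q)
    have hden : ((N' : ℂ) * ((q : ℂ) * τ) + q * (Int.gcdA q N' : ℂ))
        = q * ((N' : ℂ) * τ + (Int.gcdA q N' : ℂ)) := by ring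
    rw [hden, Nat.cast_mul, ← mul_div_assoc, ← mul_div_assoc, mul_assoc, mul_div_mul_left _ _ hq]
  rw [jd, comp_apply, he]
  exact jd_smul_of_mem (by simpa [γ] using Int.natCast_dvd_natCast.mpr hd) τ

theorem mem_cuspRing_comp_alMap [NeZero (q * N')] {f : ℍ → ℂ} (hf : f ∈ levelRing (q * N')) :
    f ∘ alMap hco ∈ cuspRing := by
  refine ⟨mdiff_comp (g := alMap hco) hf.1 ?_, fun τ => ?_,
    (hf.2.2 (alGamma hco)).comp (Nat.cast_pos.mpr (NeZero.pos q)) (dil_im q)⟩
  · refine (mdiff_comp (f := fun σ : ℍ => ((alGamma hco • σ : ℍ) : ℂ)) ?_ ?_ : _)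
    · exact mdifferentiable_coe.comp
        (mdifferentiable_smul (g := (alGamma hco : GL (Fin 2) ℝ)) (by simp))
    · simp only [coe_dil]
      exact mdifferentiable_const.mul mdifferentiable_coe
  · set γ := alGamma hco
    have hT : dil q ((1 : ℝ) +ᵥ τ) = ModularGroup.T ^ (q : ℤ) • dil q τ := by
      rw [dil_vadd, mul_one, modular_T_zpow_smul, Int.cast_natCast]
    have hmem : γ * ModularGroup.T ^ (q : ℤ) * γ⁻¹ ∈ Gamma0 (q * N') := by
      rw [Gamma0_mem, ZMod.intCast_zmod_eq_zero_iff_dvd]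
      refine ⟨-(N' : ℤ), ?_⟩
      rw [conj_T_zpow_lower_left, show γ 1 0 = (N' : ℤ) from rfl]
      push_cast
      ring
    show f (γ • dil q ((1 : ℝ) +ᵥ τ)) = f (γ • dil q τ)
    calc f (γ • dil q ((1 : ℝ) +ᵥ τ))
        = f ((γ * ModularGroup.T ^ (q : ℤ) * γ⁻¹) • γ • dil q τ) := by
          rw [hT, smul_smul, smul_smul, inv_mul_cancel_right]
      _ = f (γ • dil q τ) := hf.2.1 _ hmem _

/-- `f ↦ f ∘ W` on the level ring. -/
def alPull [NeZero (q * N')] : levelRing (q * N') →ₐ[ℂ] cuspRing where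
  toFun f := ⟨(f : ℍ → ℂ) ∘ alMap hco, mem_cuspRing_comp_alMap hco f.2⟩
  map_one' := rfl
  map_mul' _ _ := rfl
  map_zero' := rfl
  map_add' _ _ := rfl
  commutes' _ := rfl

theorem alPull_injective [NeZero (q * N')] : Injective (alPull hco) := fun f g h => by
  refine Subtype.ext (funext fun τ => ?_)
  obtain ⟨σ, hσ⟩ := exists_dil_eq q ((alGamma hco)⁻¹ • τ)
  have h1 : (f : ℍ → ℂ) (alMap hco σ) = (g : ℍ → ℂ) (alMap hco σ) :=
    congrFun (congrArg Subtype.val h) σ
  rwa [alMap, hσ, smul_inv_smul] at h1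

theorem alComp_injective [NeZero (q * N')] : Injective (qLaurentHom.comp (alPull hco)) :=
  qLaurentHom_injective.comp (alPull_injective hco)

/-- The action on Laurent expansions over `ℂ`. -/
def alSeries [NeZero (q * N')] :
    laurentBaseChange ℂ (modularFunctionFieldFull (q * N')) →ₐ[ℂ] LaurentSeries ℂ :=
  liftLevel (q * N') (qLaurentHom.comp (alPull hco)) (alComp_injective hco)

theorem toBaseChange_eq_levelToField {M d : ℕ} [NeZero M] [NeZero d] (hd : d ∣ M) :
    toBaseChange ℂ (modularFunctionFieldFull M) ⟨qExpand ℚ d jq, ModularCurve.jqd_mem_full M hd⟩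
      = levelToField M ⟨jd d, jd_mem_levelRing hd⟩ := by
  apply Subtype.ext
  rw [coe_toBaseChange, coe_levelToField, coeffEmb_qExpand, qLaurent_jd]

theorem alSeries_qExpand [NeZero (q * N')] {d : ℕ} [NeZero d] (hd : d ∣ q * N') {e : ℕ} [NeZero e]
    (h : ∀ τ, jd d (alMap hco τ) = jd e τ) :
    alSeries hco (toBaseChange ℂ (modularFunctionFieldFull (q * N'))
      ⟨qExpand ℚ d jq, ModularCurve.jqd_mem_full _ hd⟩) = coeffEmb ℂ (qExpand ℚ e jq) := by
  rw [toBaseChange_eq_levelToField hd, alSeries, liftLevel_levelToField, coeffEmb_qExpand,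
    ← qLaurent_jd]
  show qLaurent (fun τ => jd d (alMap hco τ)) = _
  rw [funext h]

variable [hq : Fact q.Prime]

include hco hq in
theorem exists_alImage [NeZero (q * N')] (y : modularFunctionFieldFull (q * N')) :
    ∃ z : modularFunctionFieldFull (q * N'),
      alSeries hco (toBaseChange ℂ _ y) = coeffEmb ℂ (z : LaurentSeries ℚ) := by
  obtain ⟨y, hy⟩ := y
  induction hy using IntermediateField.adjoin_induction with
  | mem x hx =>
    obtain ⟨d, hne, hd, rfl⟩ := hx
    obtain ⟨k, m, hk, hm, rfl⟩ := Nat.dvd_mul.mp hd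
    have hm0 : NeZero m := ⟨fun h => NeZero.ne (k * m) (by simp [h])⟩
    have : NeZero (q * m) := ⟨Nat.mul_ne_zero (NeZero.ne q) (NeZero.ne m)⟩
    rcases hq.out.eq_one_or_self_of_dvd k hk with rfl | rfl
    · exact ⟨⟨_, ModularCurve.jqd_mem_full (q * N') (mul_dvd_mul_left q hm)⟩,
        alSeries_qExpand hco hd (e := q * m) fun τ => by simpa using jd_alMap hco hm τ⟩
    · exact ⟨⟨_, ModularCurve.jqd_mem_full (k * N') (hm.trans (dvd_mul_left _ _))⟩,
        alSeries_qExpand hco hd (e := m) (jd_mul_alMap hco hm)⟩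
  | algebraMap c =>
    refine ⟨(c : modularFunctionFieldFull (q * N')), ?_⟩
    refine Eq.trans (congrArg (fun z => alSeries hco (toBaseChange ℂ _ z))
      (Subtype.ext (by simp) : _ = (c : modularFunctionFieldFull (q * N')))) ?_
    simp
  | add a b ha hb iha ihb =>
    obtain ⟨u, hu⟩ := iha
    obtain ⟨v, hv⟩ := ihb
    refine ⟨u + v, ?_⟩
    rw [AddMemClass.coe_add, map_add, ← hu, ← hv, ← map_add, ← map_add]
    rfl
  | inv a ha iha =>
    obtain ⟨u, hu⟩ := iha
    refine ⟨u⁻¹, ?_⟩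
    rw [IntermediateField.coe_inv, map_inv₀, ← hu, ← map_inv₀, ← map_inv₀]
    rfl
  | mul a b ha hb iha ihb =>
    obtain ⟨u, hu⟩ := iha
    obtain ⟨v, hv⟩ := ihb
    refine ⟨u * v, ?_⟩
    rw [MulMemClass.coe_mul, map_mul, ← hu, ← hv, ← map_mul, ← map_mul]
    rfl

variable [NeZero (q * N')]

/-- The Atkin-Lehner endomorphism over `ℚ`. -/
def alHom : modularFunctionFieldFull (q * N') →+* modularFunctionFieldFull (q * N') where
  toFun y := (exists_alImage hco y).choose
  map_one' := by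
    refine Subtype.ext ((coeffEmb ℂ).injective ?_)
    rw [← (exists_alImage hco 1).choose_spec]
    simp
  map_mul' x y := by
    refine Subtype.ext ((coeffEmb ℂ).injective ?_)
    rw [← (exists_alImage hco (x * y)).choose_spec, MulMemClass.coe_mul, map_mul, map_mul, map_mul,
      ← (exists_alImage hco x).choose_spec, ← (exists_alImage hco y).choose_spec]
  map_zero' := by
    refine Subtype.ext ((coeffEmb ℂ).injective ?_)
    rw [← (exists_alImage hco 0).choose_spec]
    simp
  map_add' x y := by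
    refine Subtype.ext ((coeffEmb ℂ).injective ?_)
    rw [← (exists_alImage hco (x + y)).choose_spec, AddMemClass.coe_add, map_add, map_add, map_add,
      ← (exists_alImage hco x).choose_spec, ← (exists_alImage hco y).choose_spec]

theorem coeffEmb_alHom (y : modularFunctionFieldFull (q * N')) :
    coeffEmb ℂ (alHom hco y : LaurentSeries ℚ) = alSeries hco (toBaseChange ℂ _ y) :=
  (exists_alImage hco y).choose_spec.symm

theorem alHom_qExpand {d : ℕ} [NeZero d] (hd : d ∣ N') :
    haveI : NeZero (q * d) := ⟨Nat.mul_ne_zero (NeZero.ne q) (NeZero.ne d)⟩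
    (alHom hco ⟨qExpand ℚ d jq, ModularCurve.jqd_mem_full _ (hd.trans (dvd_mul_left N' q))⟩ :
        LaurentSeries ℚ) = qExpand ℚ (q * d) jq ∧
      (alHom hco ⟨qExpand ℚ (q * d) jq, ModularCurve.jqd_mem_full _ (mul_dvd_mul_left q hd)⟩ :
        LaurentSeries ℚ) = qExpand ℚ d jq := by
  have : NeZero (q * d) := ⟨Nat.mul_ne_zero (NeZero.ne q) (NeZero.ne d)⟩
  constructor <;> refine (coeffEmb ℂ).injective ?_ <;> rw [coeffEmb_alHom]
  · exact alSeries_qExpand hco (hd.trans (dvd_mul_left N' q)) (jd_alMap hco hd)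
  · exact alSeries_qExpand hco (mul_dvd_mul_left q hd) (jd_mul_alMap hco hd)

theorem alHom_alHom (y : modularFunctionFieldFull (q * N')) : alHom hco (alHom hco y) = y := by
  suffices ∀ (x : LaurentSeries ℚ) (_ : x ∈ IntermediateField.adjoin ℚ
      (ModularCurve.divisorExpansions (q * N'))) (hx' : x ∈ modularFunctionFieldFull (q * N')),
      alHom hco (alHom hco ⟨x, hx'⟩) = ⟨x, hx'⟩ from this y.1 y.2 y.2
  intro x hx
  induction hx using IntermediateField.adjoin_induction with
  | mem x hx =>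
    intro hx'
    obtain ⟨d, hne, hd, rfl⟩ := hx
    obtain ⟨k, m, hk, hm, rfl⟩ := Nat.dvd_mul.mp hd
    have hm0 : NeZero m := ⟨fun h => NeZero.ne (k * m) (by simp [h])⟩
    have : NeZero (q * m) := ⟨Nat.mul_ne_zero (NeZero.ne q) (NeZero.ne m)⟩
    obtain ⟨h1, h2⟩ := alHom_qExpand hco hm
    rcases hq.out.eq_one_or_self_of_dvd k hk with rfl | rfl
    · apply Subtype.ext
      have e : (⟨qExpand ℚ (1 * m) jq, hx'⟩ :
          modularFunctionFieldFull (q * N'))
        = ⟨qExpand ℚ m jq, ModularCurve.jqd_mem_full _ (hm.trans (dvd_mul_left N' q))⟩ :=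
        Subtype.ext (ModularCurve.qExpand_congr (one_mul m) jq)
      rw [e, show alHom hco _ = (⟨_, ModularCurve.jqd_mem_full _ (mul_dvd_mul_left q hm)⟩ :
        modularFunctionFieldFull (q * N')) from Subtype.ext h1, h2]
    · apply Subtype.ext
      rw [show alHom hco _ = (⟨_, ModularCurve.jqd_mem_full _ (hm.trans (dvd_mul_left N' k))⟩ :
        modularFunctionFieldFull (k * N')) from Subtype.ext h2, h1]
  | algebraMap c =>
    intro hx'
    rw [show (⟨algebraMap ℚ (LaurentSeries ℚ) c, hx'⟩ : modularFunctionFieldFull (q * N'))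
      = (c : modularFunctionFieldFull (q * N')) from Subtype.ext (by simp), map_ratCast, map_ratCast]
  | add a b ha hb iha ihb =>
    intro hx'
    have ha' : a ∈ modularFunctionFieldFull (q * N') := ha
    have hb' : b ∈ modularFunctionFieldFull (q * N') := hb
    rw [show (⟨a + b, hx'⟩ : modularFunctionFieldFull (q * N'))
      = ⟨a, ha'⟩ + ⟨b, hb'⟩ from rfl, map_add, map_add, iha, ihb]
  | inv a ha iha =>
    intro hx'
    have ha' : a ∈ modularFunctionFieldFull (q * N') := ha
    rw [show (⟨a⁻¹, hx'⟩ : modularFunctionFieldFull (q * N'))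
      = (⟨a, ha'⟩ : modularFunctionFieldFull (q * N'))⁻¹ from rfl, map_inv₀, map_inv₀, iha]
  | mul a b ha hb iha ihb =>
    intro hx'
    have ha' : a ∈ modularFunctionFieldFull (q * N') := ha
    have hb' : b ∈ modularFunctionFieldFull (q * N') := hb
    rw [show (⟨a * b, hx'⟩ : modularFunctionFieldFull (q * N'))
      = ⟨a, ha'⟩ * ⟨b, hb'⟩ from rfl, map_mul, map_mul, iha, ihb]

/-- The Atkin-Lehner involution over `ℚ`. -/
def atkinLehner :
    modularFunctionFieldFull (q * N') ≃ₐ[ℚ] modularFunctionFieldFull (q * N') :=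
  AlgEquiv.ofRingEquiv (f := RingEquiv.ofRingHom (alHom hco) (alHom hco)
      (RingHom.ext fun y => alHom_alHom hco y) (RingHom.ext fun y => alHom_alHom hco y))
    fun r => by simp

theorem atkinLehner_qExpand {d : ℕ} [NeZero d] (hd : d ∣ N') :
    haveI : NeZero (q * d) := ⟨Nat.mul_ne_zero (NeZero.ne q) (NeZero.ne d)⟩
    (atkinLehner hco ⟨qExpand ℚ d jq, ModularCurve.jqd_mem_full _ (hd.trans (dvd_mul_left N' q))⟩ :
        LaurentSeries ℚ) = qExpand ℚ (q * d) jq ∧
      (atkinLehner hco ⟨qExpand ℚ (q * d) jq, ModularCurve.jqd_mem_full _ (mul_dvd_mul_left q hd)⟩ :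
        LaurentSeries ℚ) = qExpand ℚ d jq :=
  alHom_qExpand hco hd

theorem atkinLehner_atkinLehner (y : modularFunctionFieldFull (q * N')) :
    atkinLehner hco (atkinLehner hco y) = y := alHom_alHom hco y

/-- The Atkin-Lehner involution over `L`. -/
def atkinLehnerBar (L : Type*) [Field L] [Algebra ℚ L] :
    laurentBaseChange L (modularFunctionFieldFull (q * N')) ≃ₐ[L]
      laurentBaseChange L (modularFunctionFieldFull (q * N')) :=
  baseChangeEquiv L (atkinLehner hco)

@[simp] theorem atkinLehnerBar_toBaseChange (L : Type*) [Field L] [Algebra ℚ L]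
    (y : modularFunctionFieldFull (q * N')) :
    atkinLehnerBar hco L (toBaseChange L _ y) = toBaseChange L _ (atkinLehner hco y) :=
  baseChangeEquiv_toBaseChange L _ y

theorem atkinLehnerBar_atkinLehnerBar (L : Type*) [Field L] [Algebra ℚ L]
    (x : laurentBaseChange L (modularFunctionFieldFull (q * N'))) :
    atkinLehnerBar hco L (atkinLehnerBar hco L x) = x := by
  have h : ((atkinLehnerBar hco L).toAlgHom.comp (atkinLehnerBar hco L).toAlgHom)
      = AlgHom.id L _ := algHom_ext_toBaseChange L fun y => by simp [atkinLehner_atkinLehner]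
  exact DFunLike.congr_fun h x

theorem atkinLehnerBar_arithmeticRingAut (L : Type*) [Field L] [Algebra ℚ L] (σ : L ≃ₐ[ℚ] L)
    (x : laurentBaseChange L (modularFunctionFieldFull (q * N'))) :
    ModularCurve.arithmeticRingAut _ σ (atkinLehnerBar hco L x)
      = atkinLehnerBar hco L (ModularCurve.arithmeticRingAut _ σ x) :=
  arithmeticRingAut_baseChangeMap σ (atkinLehner hco).toAlgHom x

end FermatAgent.ModFun

end
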