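import Fermat.Agent.ModCurve.Fun.Degree
import Fermat.Agent.ModCurve.Group.Counts

/-!
# The degree over `L(j)` stated with `dedekindPsi`
-/

set_option autoImplicit false

noncomputable section

open Polynomial IntermediateField

namespace FermatAgent.ModFun

open ModularCurve (laurentBaseChange modularFunctionFieldFull)

variable (L : Type*) [Field L] [Algebra ℚ L] (N : ℕ) [NeZero N]

/-- `[F_L : L(j)] = ψ(N)`. -/
theorem finrank_adjoin_jBar_eq_dedekindPsi :
    Module.finrank L⟮jBar L N⟯ (laurentBaseChange L (modularFunctionFieldFull N))
      = ModularCurve.dedekindPsi N := by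
  rw [finrank_adjoin_jBar, ModCurveGroup.index_gamma0]

end FermatAgent.ModFun

end
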