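import Mathlib.FieldTheory.IntermediateField.Adjoin.Basic
import Mathlib.FieldTheory.Minpoly.Field
import Mathlib.FieldTheory.Separable
import Mathlib.Algebra.CharP.Algebra

/-!
# Degree of `L(x, y)` over `L(x)` from a bivariate relation of minimal degree
-/

set_option autoImplicit false

noncomputable section

open Polynomial IntermediateField

namespace FermatAgent.ModFun

variable {L F : Type*} [Field L] [Field F] [Algebra L F] (x y : F)

/-- `P(X, Y) ↦ P(x, y)`. -/
def biEval : L[X][X] →+* F := eval₂RingHom (aeval x : L[X] →ₐ[L] F).toRingHom y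

theorem biEval_monomial (i : ℕ) (a : L[X]) : biEval x y (monomial i a) = aeval x a * y ^ i := by
  simp [biEval]

/-- The coefficients of a bivariate polynomial moved to `L(x)`. -/
def toAdjoinX : L[X] →+* L⟮x⟯ :=
  (aeval (⟨x, mem_adjoin_simple_self L x⟩ : L⟮x⟯) : L[X] →ₐ[L] L⟮x⟯).toRingHom

theorem coe_toAdjoinX (p : L[X]) : ((toAdjoinX x p : L⟮x⟯) : F) = aeval x p :=
  (aeval_algHom_apply (IntermediateField.val L⟮x⟯) _ p).symm

theorem aeval_map_toAdjoinX (P : L[X][X]) : aeval y (P.map (toAdjoinX x)) = biEval x y P := by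
  rw [aeval_def, Polynomial.eval₂_map, biEval, coe_eval₂RingHom]
  congr 1
  exact RingHom.ext fun p => coe_toAdjoinX x p

variable {x y} {n : ℕ}

theorem eq_zero_of_aeval_of_noRelation
    (hrel : ∀ P : L[X][X], P.natDegree < n → biEval x y P = 0 → P = 0) {p : Polynomial L⟮x⟯}
    (hdeg : p.natDegree < n) (h : aeval y p = 0) : p = 0 := by
  classical
  have hr : ∀ i, ∃ r s : L[X], aeval x s ≠ 0 ∧
      ((p.coeff i : L⟮x⟯) : F) * aeval x s = aeval x r := by
    intro i
    obtain ⟨r, s, h⟩ := (mem_adjoin_simple_iff L _).mp (p.coeff i).2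
    by_cases hs : aeval x s = 0
    · exact ⟨0, 1, by simp, by rw [h, hs]; simp⟩
    · exact ⟨r, s, hs, by rw [h, div_mul_cancel₀ _ hs]⟩
  choose r s hs hrs using hr
  set I := Finset.range (p.natDegree + 1)
  set P : L[X][X] := ∑ i ∈ I, monomial i (r i * ∏ k ∈ I.erase i, s k)
  have hPdeg : P.natDegree < n := by
    refine lt_of_le_of_lt (natDegree_sum_le_of_forall_le _ _ fun i hi => ?_) hdeg
    exact (natDegree_monomial_le _).trans (Finset.mem_range_succ_iff.mp hi)
  have hP : biEval x y P = 0 := by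
    have he : biEval x y P = aeval x (∏ k ∈ I, s k) * aeval y p := by
      rw [aeval_eq_sum_range (x := y), Finset.mul_sum, map_sum]
      refine Finset.sum_congr rfl fun i hi => ?_
      rw [biEval_monomial, Algebra.smul_def, IntermediateField.algebraMap_apply, map_mul, ← hrs i,
        mul_assoc (p.coeff i : F), ← map_mul, Finset.mul_prod_erase I s hi]
      ring
    rw [he, h, mul_zero]
  have hP0 := hrel P hPdeg hP
  ext1 i
  rw [coeff_zero]
  by_cases hi : i ∈ I
  · have := congrArg (fun Q : L[X][X] => Q.coeff i) hP0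
    simp only [P, finsetSum_coeff, coeff_monomial, Finset.sum_ite_eq', hi, if_true, coeff_zero,
      mul_eq_zero, Finset.prod_eq_zero_iff] at this
    rcases this with h' | ⟨k, _, hk⟩
    · have h2 := hrs i
      rw [h', map_zero, mul_eq_zero, or_iff_left (hs i)] at h2
      exact Subtype.ext h2
    · exact absurd (by rw [hk, map_zero]) (hs k)
  · exact coeff_eq_zero_of_natDegree_lt (by simpa [I] using hi)

variable (Φ : L[X][X]) (hm : Φ.Monic) (hd : Φ.natDegree = n) (h0 : biEval x y Φ = 0)

include hm h0 in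
theorem isIntegral_of_biEval : IsIntegral L⟮x⟯ y :=
  ⟨Φ.map (toAdjoinX x), hm.map _, (aeval_map_toAdjoinX x y Φ).trans h0⟩

include hm hd h0 in
theorem minpoly_eq_of_noRelation
    (hrel : ∀ P : L[X][X], P.natDegree < n → biEval x y P = 0 → P = 0) :
    minpoly L⟮x⟯ y = Φ.map (toAdjoinX x) := by
  have hi := isIntegral_of_biEval Φ hm h0
  have hz : aeval y (Φ.map (toAdjoinX x)) = 0 := (aeval_map_toAdjoinX x y Φ).trans h0
  refine (Polynomial.eq_of_monic_of_dvd_of_natDegree_le (minpoly.monic hi) (hm.map _)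
    (minpoly.dvd _ _ hz) ?_).symm
  rw [hm.natDegree_map, hd]
  exact le_of_not_gt fun hlt =>
    minpoly.ne_zero hi (eq_zero_of_aeval_of_noRelation hrel hlt (minpoly.aeval _ _))

include hm hd h0 in
theorem finrank_of_noRelation (hgen : IntermediateField.adjoin L ({x, y} : Set F) = ⊤)
    (hrel : ∀ P : L[X][X], P.natDegree < n → biEval x y P = 0 → P = 0) :
    Module.finrank L⟮x⟯ F = n := by
  have htop : L⟮x⟯⟮y⟯ = (⊤ : IntermediateField L⟮x⟯ F) := by
    refine IntermediateField.restrictScalars_injective L ?_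
    rw [adjoin_simple_adjoin_simple, hgen]
    rfl
  rw [← IntermediateField.finrank_top', ← htop, adjoin.finrank (isIntegral_of_biEval Φ hm h0),
    minpoly_eq_of_noRelation Φ hm hd h0 hrel, hm.natDegree_map, hd]

/-- Finiteness and separability over `L(x)` in characteristic zero. -/
theorem finite_separable_of_finrank_pos [CharZero L] (x : F) (h : 0 < Module.finrank L⟮x⟯ F) :
    FiniteDimensional L⟮x⟯ F ∧ Algebra.IsSeparable L⟮x⟯ F := by
  have : CharZero L⟮x⟯ := charZero_of_injective_algebraMap (algebraMap L L⟮x⟯).injective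
  have : FiniteDimensional L⟮x⟯ F := Module.finite_of_finrank_pos h
  exact ⟨this, inferInstance⟩

end FermatAgent.ModFun

end
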