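import Fermat.Agent.ModCurve.Fun.Field
import Fermat.Agent.ModCurve.Fun.Bivariate

/-!
# `F = L(j, j_N)` has degree `[SL₂(ℤ) : Γ₀(N)]` over `L(j)`
-/

set_option autoImplicit false

noncomputable section

open Polynomial CongruenceSubgroup IntermediateField
open scoped MatrixGroups

namespace FermatAgent.ModFun

open ModularCurve (coeffEmb laurentBaseChange modularFunctionFieldFull jqModC jqNModC qExpand jq)

variable (L : Type*) [Field L] [Algebra ℚ L] (N : ℕ) [NeZero N]

/-- `j` in the base-changed field. -/
def jBar : laurentBaseChange L (modularFunctionFieldFull N) :=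
  ⟨jqModC L, by rw [laurentBaseChange_full_eq]; exact ModularCurve.jqModC_mem L N⟩

/-- `j(N ·)` in the base-changed field. -/
def jNBar : laurentBaseChange L (modularFunctionFieldFull N) :=
  ⟨jqNModC L N, by rw [laurentBaseChange_full_eq]; exact ModularCurve.jqNModC_mem L N⟩

@[simp] theorem coe_jBar : (jBar L N : LaurentSeries L) = jqModC L := rfl

@[simp] theorem coe_jNBar : (jNBar L N : LaurentSeries L) = jqNModC L N := rfl

theorem coe_aeval_jBar (p : L[X]) :
    ((aeval (jBar L N) p : laurentBaseChange L (modularFunctionFieldFull N)) : LaurentSeries L)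
      = aeval (jqModC L) p :=
  (aeval_algHom_apply (IntermediateField.val _) (jBar L N) p).symm

theorem transcendental_jBar : Transcendental L (jBar L N) := by
  rintro ⟨p, hp, h⟩
  exact hp (aeval_jqModC_eq_zero (by rw [← coe_aeval_jBar L N, h]; rfl))

theorem adjoin_jBar_jNBar :
    IntermediateField.adjoin L ({jBar L N, jNBar L N} :
      Set (laurentBaseChange L (modularFunctionFieldFull N))) = ⊤ := by
  refine IntermediateField.map_injective (IntermediateField.val _) ?_
  rw [IntermediateField.adjoin_map, Set.image_pair, ← AlgHom.fieldRange_eq_map,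
    IntermediateField.fieldRange_val]
  exact (laurentBaseChange_full_eq L N).symm

theorem coe_biEval (P : L[X][X]) :
    ((biEval (jBar L N) (jNBar L N) P : laurentBaseChange L (modularFunctionFieldFull N)) :
      LaurentSeries L) = bEval L N P := by
  induction P using Polynomial.induction_on' with
  | add p q hp hq => simp [hp, hq]
  | monomial i a =>
    rw [biEval_monomial, bEval_monomial, MulMemClass.coe_mul, coe_aeval_jBar, SubmonoidClass.coe_pow,
      coe_jNBar]

/-- The degree of the modular curve over the `j`-line. -/
theorem finrank_adjoin_jBar :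
    Module.finrank L⟮jBar L N⟯ (laurentBaseChange L (modularFunctionFieldFull N))
      = (Gamma0 N).index :=
  finrank_of_noRelation (modPolyK N L) (modPolyK_monic N L) (natDegree_modPolyK N L)
    (Subtype.ext ((coe_biEval L N _).trans (bEval_modPolyK N L))) (adjoin_jBar_jNBar L N)
    fun P hP h => eq_zero_of_bEval N L hP (by rw [← coe_biEval, h]; rfl)

theorem finite_separable_adjoin_jBar :
    FiniteDimensional L⟮jBar L N⟯ (laurentBaseChange L (modularFunctionFieldFull N)) ∧
      Algebra.IsSeparable L⟮jBar L N⟯ (laurentBaseChange L (modularFunctionFieldFull N)) :=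
  haveI : CharZero L := charZero_of_injective_algebraMap (algebraMap ℚ L).injective
  finite_separable_of_finrank_pos _ (by rw [finrank_adjoin_jBar]; exact index_pos N)

theorem finiteDimensional_adjoin_jBar :
    FiniteDimensional L⟮jBar L N⟯ (laurentBaseChange L (modularFunctionFieldFull N)) :=
  (finite_separable_adjoin_jBar L N).1

theorem isSeparable_adjoin_jBar :
    Algebra.IsSeparable L⟮jBar L N⟯ (laurentBaseChange L (modularFunctionFieldFull N)) :=
  (finite_separable_adjoin_jBar L N).2

end FermatAgent.ModFun

end
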