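import Fermat.Agent.ModCurve.Fun.JFun
import Mathlib.NumberTheory.ModularForms.CongruenceSubgroups

/-!
# `Γ₀(N)`-invariant holomorphic functions on `ℍ` meromorphic at all cusps, and `j(d τ)`
-/

set_option autoImplicit false

noncomputable section

open UpperHalfPlane hiding I
open Complex Filter Function Asymptotics CongruenceSubgroup
open scoped Real Topology MatrixGroups Manifold ModularForm

namespace FermatAgent.ModFun

local notation "Δ" => ModularForm.discriminant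

/-- Holomorphic and tame at `i∞`. -/
def tameRing : Subalgebra ℂ (ℍ → ℂ) where
  carrier := {f | MDiff f ∧ IsTame f}
  mul_mem' hf hg := ⟨hf.1.mul hg.1, hf.2.mul hg.2⟩
  add_mem' hf hg := ⟨hf.1.add hg.1, hf.2.add hg.2⟩
  algebraMap_mem' c := ⟨mdifferentiable_const, isTame_algebraMap c⟩

instance : IsDomain tameRing := by
  have : NoZeroDivisors tameRing :=
    ⟨fun {f g} h => by
      rcases (UpperHalfPlane.mul_eq_zero_iff f.2.1 g.2.1).mp (congrArg Subtype.val h) with h | h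
      · exact Or.inl (Subtype.ext h)
      · exact Or.inr (Subtype.ext h)⟩
  have : Nontrivial tameRing :=
    ⟨⟨0, 1, fun h => zero_ne_one (congrFun (congrArg Subtype.val h) UpperHalfPlane.I)⟩⟩
  exact NoZeroDivisors.to_isDomain _

theorem mdiff_comp_smul {f : ℍ → ℂ} (hf : MDiff f) (γ : SL(2, ℤ)) :
    MDiff fun τ : ℍ => f (γ • τ) := by
  refine mdiff_comp (g := fun τ : ℍ => γ • τ) hf ?_
  exact mdifferentiable_coe.comp (mdifferentiable_smul (g := (γ : GL (Fin 2) ℝ)) (by simp))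

/-- The coordinate ring of `Y₀(N)` over `ℂ`. -/
def levelRing (N : ℕ) : Subalgebra ℂ (ℍ → ℂ) where
  carrier := {f | MDiff f ∧ (∀ γ ∈ Gamma0 N, ∀ τ : ℍ, f (γ • τ) = f τ) ∧
    ∀ γ : SL(2, ℤ), IsTame fun τ : ℍ => f (γ • τ)}
  mul_mem' hf hg := ⟨hf.1.mul hg.1,
    fun γ hγ τ => by simp only [Pi.mul_apply, hf.2.1 γ hγ, hg.2.1 γ hγ],
    fun γ => (hf.2.2 γ).mul (hg.2.2 γ)⟩
  add_mem' hf hg := ⟨hf.1.add hg.1,
    fun γ hγ τ => by simp only [Pi.add_apply, hf.2.1 γ hγ, hg.2.1 γ hγ],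
    fun γ => (hf.2.2 γ).add (hg.2.2 γ)⟩
  algebraMap_mem' c := ⟨mdifferentiable_const, fun _ _ _ => rfl, fun _ => isTame_algebraMap c⟩

theorem mem_tameRing_comp_smul {N : ℕ} {f : ℍ → ℂ} (hf : f ∈ levelRing N) (γ : SL(2, ℤ)) :
    (fun τ : ℍ => f (γ • τ)) ∈ tameRing :=
  ⟨mdiff_comp_smul hf.1 γ, hf.2.2 γ⟩

theorem T_mem_Gamma0 (N : ℕ) : ModularGroup.T ∈ Gamma0 N := by
  rw [Gamma0_mem, ModularGroup.coe_T]
  simp

theorem levelRing_le_cuspRing (N : ℕ) : levelRing N ≤ cuspRing := fun f hf => by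
  refine ⟨hf.1, fun τ => ?_, by simpa using hf.2.2 1⟩
  rw [← modular_T_smul, hf.2.1 _ (T_mem_Gamma0 N)]

theorem Gamma0_le_of_dvd {N M : ℕ} (h : N ∣ M) : Gamma0 M ≤ Gamma0 N := fun γ hγ => by
  rw [Gamma0_mem, ZMod.intCast_zmod_eq_zero_iff_dvd] at hγ ⊢
  exact dvd_trans (Int.natCast_dvd_natCast.mpr h) hγ

/-- `τ ↦ (a τ + b) / e`. -/
def aff (a e : ℕ) (b : ℤ) [NeZero a] [NeZero e] (τ : ℍ) : ℍ :=
  ((b : ℝ) / e) +ᵥ (⟨(a : ℝ) / e, div_pos (Nat.cast_pos.mpr (NeZero.pos a))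
    (Nat.cast_pos.mpr (NeZero.pos e))⟩ : {x : ℝ // 0 < x}) • τ

theorem coe_aff (a e : ℕ) (b : ℤ) [NeZero a] [NeZero e] (τ : ℍ) :
    (aff a e b τ : ℂ) = (a * τ + b) / e := by
  simp [aff]; ring

theorem aff_im (a e : ℕ) (b : ℤ) [NeZero a] [NeZero e] (τ : ℍ) :
    (aff a e b τ).im = (a : ℝ) / e * τ.im := by
  simp [aff]

/-- `diag(d,1) γ = δ (a b; 0 e)`. -/
theorem exists_dil_smul (d : ℕ) [NeZero d] (γ : SL(2, ℤ)) :
    ∃ (δ : SL(2, ℤ)) (a e : ℕ) (b : ℤ) (_ : NeZero a) (_ : NeZero e), a * e = d ∧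
      (∀ τ : ℍ, dil d (γ • τ) = δ • aff a e b τ) ∧ (e = 1 → (d : ℤ) ∣ γ 1 0) := by
  have hdet : γ 0 0 * γ 1 1 - γ 0 1 * γ 1 0 = 1 := by
    have h := γ.2
    rwa [Matrix.det_fin_two] at h
  set α := γ 0 0
  set β := γ 0 1
  set c := γ 1 0
  set δ' := γ 1 1
  have hd : (d : ℤ) ≠ 0 := by exact_mod_cast NeZero.ne d
  have hne : Int.gcd ((d : ℤ) * α) c ≠ 0 := by
    intro h
    rw [Int.gcd_eq_zero_iff] at h
    rcases mul_eq_zero.mp h.1 with h' | h'
    · exact hd h'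
    · simp [h', h.2] at hdet
  set g := Int.gcd ((d : ℤ) * α) c with hg
  obtain ⟨u, hu⟩ : (g : ℤ) ∣ (d : ℤ) * α := Int.gcd_dvd_left _ _
  obtain ⟨v, hv⟩ : (g : ℤ) ∣ c := Int.gcd_dvd_right _ _
  obtain ⟨p, q, hpq⟩ : ∃ p q : ℤ, p * u + q * v = 1 := by
    refine ⟨Int.gcdA ((d : ℤ) * α) c, Int.gcdB ((d : ℤ) * α) c,
      mul_left_cancel₀ (Int.natCast_ne_zero.mpr hne) ?_⟩
    have h := Int.gcd_eq_gcd_ab ((d : ℤ) * α) c
    rw [← hg] at h
    linear_combination -h - Int.gcdA ((d : ℤ) * α) c * hu - Int.gcdB ((d : ℤ) * α) c * hv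
  have hge : (g : ℤ) * (-v * (d * β) + u * δ') = d := by
    linear_combination ((d : ℤ) * β) * hv - δ' * hu + (d : ℤ) * hdet
  have hepos : 0 < -v * ((d : ℤ) * β) + u * δ' := by
    refine pos_of_mul_pos_right (a := (g : ℤ)) ?_ (Int.natCast_nonneg g)
    rw [hge]; exact_mod_cast NeZero.pos d
  obtain ⟨e, he⟩ : ∃ e : ℕ, (e : ℤ) = -v * ((d : ℤ) * β) + u * δ' :=
    ⟨_, Int.toNat_of_nonneg hepos.le⟩
  rw [← he] at hge hepos
  have he0 : e ≠ 0 := by omega
  have : NeZero g := ⟨hne⟩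
  have : NeZero e := ⟨he0⟩
  let δ : SL(2, ℤ) :=
    ⟨!![u, -q; v, p], by rw [Matrix.det_fin_two_of]; linear_combination hpq⟩
  refine ⟨δ, g, e,
    p * ((d : ℤ) * β) + q * δ', inferInstance, inferInstance, by exact_mod_cast hge,
    fun τ => ?_, fun he1 => ?_⟩
  · have e1 : (d : ℂ) * β = u * ((p : ℂ) * (d * β) + q * δ') + (-q) * e := by
      have : (d : ℤ) * β = u * (p * ((d : ℤ) * β) + q * δ') + (-q) * e := by
        linear_combination q * he - ((d : ℤ) * β) * hpq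
      exact_mod_cast this
    have e2 : (δ' : ℂ) = v * ((p : ℂ) * (d * β) + q * δ') + p * e := by
      have : δ' = v * (p * ((d : ℤ) * β) + q * δ') + p * e := by
        linear_combination -p * he - δ' * hpq
      exact_mod_cast this
    have e3 : (d : ℂ) * α = g * u := by exact_mod_cast hu
    have e4 : (c : ℂ) = g * v := by exact_mod_cast hv
    have he' : (e : ℂ) ≠ 0 := by exact_mod_cast he0
    ext1
    rw [coe_dil, coe_specialLinearGroup_apply, coe_specialLinearGroup_apply, coe_aff]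
    simp only [δ, Matrix.of_apply, Matrix.cons_val', Matrix.cons_val_zero,
      Matrix.cons_val_one, Matrix.empty_val', Matrix.cons_val_fin_one, algebraMap_int_eq,
      eq_intCast, Int.cast_neg, Complex.ofReal_intCast, Complex.ofReal_neg]
    change (d : ℂ) * ((α * τ + β) / (c * τ + δ')) = _
    field_simp
    push_cast
    have num : (d : ℂ) * ((α : ℂ) * τ + β)
        = u * ((g : ℂ) * τ + (p * (d * β) + q * δ')) + (-q) * e := by
      linear_combination (τ : ℂ) * e3 + e1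
    have den : (c : ℂ) * τ + δ' = v * ((g : ℂ) * τ + (p * (d * β) + q * δ')) + p * e := by
      linear_combination (τ : ℂ) * e4 + e2
    rw [num, show (τ : ℂ) * c + δ' = c * τ + δ' by ring, den]
    ring_nf
  · subst he1
    rw [Nat.cast_one, mul_one] at hge
    exact ⟨v, by rw [hv, hge]⟩

/-- `j (d τ)`. -/
def jd (d : ℕ) [NeZero d] : ℍ → ℂ := jFun ∘ dil d

theorem jd_one : jd 1 = jFun := by ext τ; simp [jd]

theorem qLaurent_jd (d : ℕ) [NeZero d] :
    qLaurent (jd d) = ModularCurve.qExpand ℂ d (ModularCurve.jqModC ℂ) := by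
  rw [jd, qLaurent_comp_dil jFun_mem_cuspRing, qLaurent_jFun]

theorem jd_smul_of_mem {d : ℕ} [NeZero d] {γ : SL(2, ℤ)} (h : (d : ℤ) ∣ γ 1 0) (τ : ℍ) :
    jd d (γ • τ) = jd d τ := by
  obtain ⟨c', hc'⟩ := h
  have hdet : γ 0 0 * γ 1 1 - γ 0 1 * γ 1 0 = 1 := by
    have h := γ.2
    rwa [Matrix.det_fin_two] at h
  let γ' : SL(2, ℤ) := ⟨!![γ 0 0, d * γ 0 1; c', γ 1 1],
    by rw [Matrix.det_fin_two_of]; linear_combination hdet + (γ 0 1) * hc'⟩
  have : dil d (γ • τ) = γ' • dil d τ := by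
    ext1
    rw [coe_dil, coe_specialLinearGroup_apply, coe_specialLinearGroup_apply, coe_dil]
    have : ((γ 1 0 : ℤ) : ℂ) = d * c' := by exact_mod_cast hc'
    simp [γ', this]
    ring
  simp only [jd, comp_apply, this, jFun_smul]

theorem jd_mem_levelRing {d N : ℕ} [NeZero d] (h : d ∣ N) : jd d ∈ levelRing N := by
  refine ⟨(mem_cuspRing_comp_dil jFun_mem_cuspRing d).1, fun γ hγ τ => ?_, fun γ => ?_⟩
  · refine jd_smul_of_mem ?_ τ
    have := Gamma0_le_of_dvd h hγ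
    rwa [Gamma0_mem, ZMod.intCast_zmod_eq_zero_iff_dvd] at this
  · obtain ⟨δ, a, e, b, _, _, -, h2, -⟩ := exists_dil_smul d γ
    have : (fun τ : ℍ => jd d (γ • τ)) = jFun ∘ aff a e b := by
      ext τ; simp only [jd, comp_apply, h2, jFun_smul]
    rw [this]
    exact jFun_tame.comp (div_pos (Nat.cast_pos.mpr (NeZero.pos a))
      (Nat.cast_pos.mpr (NeZero.pos e))) (aff_im a e b)

theorem norm_jFun_comp_tendsto {g : ℍ → ℍ} {r : ℝ} (hr : 0 < r) (hg : ∀ τ, (g τ).im = r * τ.im) :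
    Tendsto (fun τ : ℍ => ‖jFun (g τ)‖ * Real.exp (-2 * π * r * τ.im)) atImInfty (𝓝 1) := by
  have ht : Tendsto g atImInfty atImInfty := by
    rw [atImInfty, tendsto_comap_iff]
    exact (tendsto_comap.const_mul_atTop hr).congr fun τ => (hg τ).symm
  exact (norm_jFun_mul_exp_tendsto.comp ht).congr fun τ => by simp [hg, mul_assoc]

theorem atImInfty_neBot : (atImInfty : Filter ℍ).NeBot := by
  rw [atImInfty_basis.neBot_iff]
  intro A _
  exact ⟨⟨⟨0, max A 1⟩, lt_max_of_lt_right one_pos⟩, le_max_left A 1⟩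

/-- Growth rates at `i∞` determine the scaling factor. -/
theorem scaling_unique {g g' : ℍ → ℍ} {r r' : ℝ} (hr : 0 < r) (hr' : 0 < r')
    (hg : ∀ τ, (g τ).im = r * τ.im) (hg' : ∀ τ, (g' τ).im = r' * τ.im)
    (h : ∀ τ, jFun (g τ) = jFun (g' τ)) : r = r' := by
  have := atImInfty_neBot
  wlog hle : r < r' generalizing g g' r r'
  · rcases eq_or_lt_of_le (not_lt.mp hle) with h' | h'
    · exact h'.symm
    · exact (this hr' hr hg' hg (fun τ => (h τ).symm) h').symm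
  exfalso
  have h1 := norm_jFun_comp_tendsto hr hg
  have h2 := norm_jFun_comp_tendsto hr' hg'
  have h3 : Tendsto (fun τ : ℍ => Real.exp (-(2 * π * (r' - r)) * τ.im)) atImInfty (𝓝 0) :=
    Real.tendsto_exp_atBot.comp
      (tendsto_comap.const_mul_atTop_of_neg (by nlinarith [Real.pi_pos]))
  have h4 := h1.mul h3
  rw [mul_zero] at h4
  refine one_ne_zero (tendsto_nhds_unique h2 (h4.congr fun τ => ?_))
  rw [mul_assoc, ← Real.exp_add, h]
  ring_nf

theorem jd_smul_eq_iff (N : ℕ) [NeZero N] (γ : SL(2, ℤ)) :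
    (∀ τ, jd N (γ • τ) = jd N τ) ↔ γ ∈ Gamma0 N := by
  rw [Gamma0_mem, ZMod.intCast_zmod_eq_zero_iff_dvd]
  refine ⟨fun h => ?_, fun h => jd_smul_of_mem h⟩
  obtain ⟨δ, a, e, b, _, _, h1, h2, h3⟩ := exists_dil_smul N γ
  have hr : (a : ℝ) / e = N := scaling_unique (g := aff a e b) (g' := dil N)
    (div_pos (Nat.cast_pos.mpr (NeZero.pos a)) (Nat.cast_pos.mpr (NeZero.pos e)))
    (Nat.cast_pos.mpr (NeZero.pos N)) (aff_im a e b) (dil_im N) fun τ => by
      rw [← jFun_smul δ, ← h2 τ]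
      exact h τ
  rw [div_eq_iff (Nat.cast_ne_zero.mpr (NeZero.ne e))] at hr
  have hr' : a = N * e := by exact_mod_cast hr
  apply h3
  have : N * (e * e) = N * 1 := by rw [mul_one, ← mul_assoc, ← hr', h1]
  exact Nat.eq_one_of_mul_eq_one_right (Nat.eq_of_mul_eq_mul_left (NeZero.pos N) this)

/-- Expansion at the cusp `γ ∞`, in the parameter `q^(1/N)`. -/
theorem mem_cuspRing_at_cusp {N : ℕ} [NeZero N] {f : ℍ → ℂ} (hf : f ∈ levelRing N) (γ : SL(2, ℤ)) :
    (fun τ : ℍ => f (γ • dil N τ)) ∈ cuspRing := by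
  refine ⟨mdiff_comp (mem_tameRing_comp_smul hf γ).1 ?_, fun τ => ?_,
    (hf.2.2 γ).comp (Nat.cast_pos.mpr (NeZero.pos N)) (dil_im N)⟩
  · simp only [coe_dil]
    exact mdifferentiable_const.mul mdifferentiable_coe
  · have hT : dil N ((1 : ℝ) +ᵥ τ) = ModularGroup.T ^ (N : ℤ) • dil N τ := by
      rw [dil_vadd, mul_one, modular_T_zpow_smul, Int.cast_natCast]
    have hmem : γ * ModularGroup.T ^ (N : ℤ) * γ⁻¹ ∈ Gamma0 N := by
      have h1 : ModularGroup.T ^ (N : ℤ) ∈ CongruenceSubgroup.Gamma N := by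
        simpa using ModularGroup_T_pow_mem_Gamma N N dvd_rfl
      have h2 := Gamma_mem.mp ((Gamma_normal N).conj_mem _ h1 γ)
      exact Gamma0_mem.mpr h2.2.2.1
    calc f (γ • dil N ((1 : ℝ) +ᵥ τ))
        = f ((γ * ModularGroup.T ^ (N : ℤ) * γ⁻¹) • γ • dil N τ) := by
          rw [hT, smul_smul, smul_smul, inv_mul_cancel_right]
      _ = f (γ • dil N τ) := hf.2.1 _ hmem _

/-- Products of modular forms over a power of `Δ` lie in the level ring. -/
theorem mul_div_discriminant_mem_levelRing {N : ℕ} [NeZero N] {k : ℤ}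
    (g h : ModularForm (Gamma0 N) k) :
    (fun τ : ℍ => g τ * h τ ^ 11 * Δ τ ^ (-k)) ∈ levelRing N := by
  have hk : ∀ τ : ℍ, Δ τ ≠ 0 := ModularForm.discriminant_ne_zero
  have key : ∀ (γ : SL(2, ℤ)) (τ : ℍ),
      g (γ • τ) * h (γ • τ) ^ 11 * Δ (γ • τ) ^ (-k)
        = (⇑g ∣[k] γ) τ * ((⇑h ∣[k] γ) τ) ^ 11 * Δ τ ^ (-k) := by
    intro γ τ
    have hd : denom (γ : GL (Fin 2) ℝ) τ ≠ 0 := denom_ne_zero _ _
    rw [ModularForm.SL_slash_apply, ModularForm.SL_slash_apply, discriminant_smul, mul_pow,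
      mul_zpow, ← zpow_natCast (denom _ _ ^ (-k)) 11, ← zpow_mul, ← zpow_mul]
    have h12 : denom (γ : GL (Fin 2) ℝ) τ ^ ((12 : ℤ) * -k)
        = denom (γ : GL (Fin 2) ℝ) τ ^ (-k) * denom (γ : GL (Fin 2) ℝ) τ ^ (-k * (11 : ℕ)) := by
      rw [← zpow_add₀ hd]
      congr 1
      push_cast
      ring
    rw [h12]
    ring
  refine ⟨?_, fun γ hγ τ => ?_, fun γ => ?_⟩
  · rw [UpperHalfPlane.mdifferentiable_iff]
    refine ((UpperHalfPlane.mdifferentiable_iff.mp (ModularFormClass.holo g)).mul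
      ((UpperHalfPlane.mdifferentiable_iff.mp (ModularFormClass.holo h)).pow 11)).mul ?_
    exact (UpperHalfPlane.mdifferentiable_iff.mp discriminant_mem_cuspRing.1).zpow
      (Or.inl fun z _ => hk _)
  · simp only
    have hg' : ⇑g ∣[k] γ = ⇑g :=
      SlashInvariantFormClass.slash_action_eq g _ (Subgroup.mem_map_of_mem _ hγ)
    have hh' : ⇑h ∣[k] γ = ⇑h :=
      SlashInvariantFormClass.slash_action_eq h _ (Subgroup.mem_map_of_mem _ hγ)
    rw [key, hg', hh']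
  · simp only [key]
    refine IsTame.mul (f := fun τ : ℍ => (⇑g ∣[k] γ) τ * ((⇑h ∣[k] γ) τ) ^ 11)
      (g := fun τ : ℍ => Δ τ ^ (-k)) (.of_bounded ?_) ?_
    · have hh : ∀ m : ℕ, IsBoundedAtImInfty ((⇑h ∣[k] γ) ^ m) := fun m => by
        induction m with
        | zero => exact const_boundedAtFilter atImInfty (1 : ℂ)
        | succ m ih =>
          rw [pow_succ]
          exact ih.mul (ModularFormClass.bdd_at_infty_slash h γ)
      exact (ModularFormClass.bdd_at_infty_slash g γ).mul (hh 11)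
    · refine isTame_iff.mpr ⟨k.natAbs, ?_⟩
      obtain ⟨m, hm⟩ : ∃ m : ℕ, (m : ℤ) = -k + k.natAbs :=
        ⟨(-k + k.natAbs).toNat, Int.toNat_of_nonneg (by omega)⟩
      have : (fun τ : ℍ => Δ τ ^ (-k)) * Δ ^ k.natAbs = Δ ^ m := by
        ext τ
        simp only [Pi.mul_apply, Pi.pow_apply]
        rw [← zpow_natCast, ← zpow_natCast (Δ τ) m, ← zpow_add₀ (hk τ), hm]
      rw [this]
      exact isBounded_discriminant_pow m

end FermatAgent.ModFun

end
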