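import Fermat.Agent.ModCurve.Fun.Field
import Mathlib.RingTheory.Localization.FractionRing

/-!
# Over `ℂ` the modular function field is the fraction field of the level ring
-/

set_option autoImplicit false

noncomputable section

open UpperHalfPlane hiding I
open Complex Filter Function CongruenceSubgroup
open scoped Real MatrixGroups ModularForm Manifold

namespace FermatAgent.ModFun

open ModularCurve (coeffEmb laurentBaseChange modularFunctionFieldFull jqModC jqNModC qExpand jq)

local notation "Δ" => ModularForm.discriminant

variable (N : ℕ) [NeZero N]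

/-- Laurent expansion on the level ring, with values in the modular function field. -/
def levelToField : levelRing N →ₐ[ℂ] laurentBaseChange ℂ (modularFunctionFieldFull N) :=
  ((qLaurentHom.comp (Subalgebra.inclusion (levelRing_le_cuspRing N))).codRestrict
    (laurentBaseChange ℂ (modularFunctionFieldFull N)).toSubalgebra fun f => by
      change qLaurent (f : ℍ → ℂ) ∈ laurentBaseChange ℂ (modularFunctionFieldFull N)
      rw [laurentBaseChange_full_eq]
      exact qLaurent_mem_pair f.2)

@[simp] theorem coe_levelToField (f : levelRing N) :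
    (levelToField N f : LaurentSeries ℂ) = qLaurent (f : ℍ → ℂ) := rfl

theorem levelToField_injective : Injective (levelToField N) := fun f g h => by
  have h1 : qLaurent (f : ℍ → ℂ) = qLaurent (g : ℍ → ℂ) := congrArg Subtype.val h
  have := qLaurentHom_injective (a₁ := ⟨f, levelRing_le_cuspRing N f.2⟩)
    (a₂ := ⟨g, levelRing_le_cuspRing N g.2⟩) h1
  apply Subtype.ext
  exact congrArg (fun z : cuspRing => (z : ℍ → ℂ)) this

instance : IsDomain (levelRing N) :=
  (levelToField_injective N).isDomain (levelToField N).toRingHom

/-- Every element of the function field is a quotient of two elements of the level ring. -/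
theorem exists_levelRing_div (x : laurentBaseChange ℂ (modularFunctionFieldFull N)) :
    ∃ a b : levelRing N, levelToField N b ≠ 0 ∧ x = levelToField N a / levelToField N b := by
  have hmem : (x : LaurentSeries ℂ) ∈ ModularCurve.modularFunctionFieldC ℂ N := by
    rw [← laurentBaseChange_full_eq]; exact x.2
  obtain ⟨r, hr, s, hs, hx⟩ := IntermediateField.mem_adjoin_iff_div.mp hmem
  let φ : levelRing N →ₐ[ℂ] LaurentSeries ℂ :=
    qLaurentHom.comp (Subalgebra.inclusion (levelRing_le_cuspRing N))
  have hle : Algebra.adjoin ℂ {jqModC ℂ, jqNModC ℂ N} ≤ φ.range := by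
    rw [Algebra.adjoin_le_iff]
    rintro _ (rfl | rfl)
    · exact ⟨⟨jd 1, jd_mem_levelRing (one_dvd N)⟩, by
        show qLaurent (jd 1) = _
        rw [jd_one, qLaurent_jFun]⟩
    · exact ⟨jdL N, qLaurent_jd N⟩
  obtain ⟨a, rfl⟩ := hle hr
  obtain ⟨b, rfl⟩ := hle hs
  by_cases hb : φ b = 0
  · refine ⟨0, 1, by rw [map_one]; exact one_ne_zero, ?_⟩
    apply Subtype.ext
    rw [hx, show φ.toRingHom b = φ b from rfl, hb, div_zero, map_zero, zero_div, ZeroMemClass.coe_zero]
  · exact ⟨a, b, fun h => hb (congrArg Subtype.val h), Subtype.ext hx⟩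

variable {K : Type*} [Field K] [Algebra ℂ K]

/-- The function field is the fraction field of the level ring. -/
theorem isFractionRing_levelRing :
    letI := (levelToField N).toRingHom.toAlgebra
    IsFractionRing (levelRing N) (laurentBaseChange ℂ (modularFunctionFieldFull N)) := by
  let := (levelToField N).toRingHom.toAlgebra
  have hft : FaithfulSMul (levelRing N) (laurentBaseChange ℂ (modularFunctionFieldFull N)) :=
    (faithfulSMul_iff_algebraMap_injective _ _).mpr (levelToField_injective N)
  refine IsFractionRing.of_field _ _ fun z => ?_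
  obtain ⟨a, b, -, h⟩ := exists_levelRing_div N z
  exact ⟨a, b, h⟩

/-- Extend an injective map of the level ring to the function field. -/
def liftLevel (φ : levelRing N →ₐ[ℂ] K) (hφ : Injective φ) :
    laurentBaseChange ℂ (modularFunctionFieldFull N) →ₐ[ℂ] K :=
  letI := (levelToField N).toRingHom.toAlgebra
  haveI : IsScalarTower ℂ (levelRing N) (laurentBaseChange ℂ (modularFunctionFieldFull N)) :=
    IsScalarTower.of_algebraMap_eq fun c => ((levelToField N).commutes c).symm
  haveI := isFractionRing_levelRing N
  IsFractionRing.liftAlgHom hφ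

@[simp] theorem liftLevel_levelToField (φ : levelRing N →ₐ[ℂ] K) (hφ : Injective φ)
    (f : levelRing N) : liftLevel N φ hφ (levelToField N f) = φ f := by
  let := (levelToField N).toRingHom.toAlgebra
  have : IsScalarTower ℂ (levelRing N) (laurentBaseChange ℂ (modularFunctionFieldFull N)) :=
    IsScalarTower.of_algebraMap_eq fun c => ((levelToField N).commutes c).symm
  have := isFractionRing_levelRing N
  exact IsFractionRing.lift_algebraMap (A := levelRing N) hφ f

theorem exists_dil_eq (τ : ℍ) : ∃ σ : ℍ, dil N σ = τ := by
  refine ⟨(⟨(N : ℝ)⁻¹, inv_pos.mpr (Nat.cast_pos.mpr (NeZero.pos N))⟩ : {x : ℝ // 0 < x}) • τ, ?_⟩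
  ext1
  simp [NeZero.ne N]

end FermatAgent.ModFun

end
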