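import Fermat.Agent.ModCurve.Fun.Product
import Fermat.Prelude.Def_ModularCurve_JqCoeff
import Fermat.Prelude.Def_ModularCurve_LaurentCoeff

/-!
# The `j`-function

The function `j = E₄³ / Δ`, its Laurent expansion, and level one invariant functions that are
meromorphic at `i∞`.
-/

set_option autoImplicit false

noncomputable section

open UpperHalfPlane hiding I
open Complex Filter Function Asymptotics Polynomial
open scoped Real Topology MatrixGroups Manifold ModularForm

namespace FermatAgent.ModFun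

local notation "Δ" => ModularForm.discriminant
local notation "𝕢" => Periodic.qParam

open EisensteinSeries

/-- Klein's `j`-function, `j = E₄³ / Δ = 1/q + 744 + ⋯`. -/
def jFun (τ : ℍ) : ℂ := ModularForm.E₄ τ ^ 3 / Δ τ

theorem modularForm_smul_eq {k : ℤ} (f : ModularForm 𝒮ℒ k) (γ : SL(2, ℤ)) (τ : ℍ) :
    f (γ • τ) = denom (γ : GL (Fin 2) ℝ) τ ^ k * f τ := by
  have h : (⇑f ∣[k] γ) τ = f τ := congrFun (f.slash_action_eq' _ ⟨γ, rfl⟩) τ
  rw [ModularForm.SL_slash_apply] at h
  rw [← h, mul_comm, mul_assoc, ← zpow_add₀ (denom_ne_zero _ _)]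
  simp

theorem discriminant_smul (γ : SL(2, ℤ)) (τ : ℍ) :
    Δ (γ • τ) = denom (γ : GL (Fin 2) ℝ) τ ^ (12 : ℤ) * Δ τ :=
  modularForm_smul_eq (CuspForm.toModularFormₗ CuspForm.discriminant) γ τ

theorem jFun_smul (γ : SL(2, ℤ)) (τ : ℍ) : jFun (γ • τ) = jFun τ := by
  have hd : denom (γ : GL (Fin 2) ℝ) τ ≠ 0 := denom_ne_zero _ _
  rw [jFun, jFun, modularForm_smul_eq, discriminant_smul, mul_pow, ← zpow_natCast (_ ^ (4 : ℤ)),
    ← zpow_mul]
  norm_num
  rw [mul_div_mul_left _ _ (pow_ne_zero 12 hd)]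

theorem modularForm_mem_cuspRing {k : ℤ} (f : ModularForm 𝒮ℒ k) : (f : ℍ → ℂ) ∈ cuspRing :=
  ⟨ModularFormClass.holo f,
    periodic_iff.mp (SlashInvariantFormClass.periodic_comp_ofComplex f one_mem_strictPeriods_SL),
    .of_bounded (ModularFormClass.bdd_at_infty f)⟩

theorem jFun_mul_discriminant :
    jFun * Δ = ((ModularForm.E₄.pow 3 : ModularForm 𝒮ℒ _) : ℍ → ℂ) := by
  ext τ
  rw [Pi.mul_apply, ModularForm.coe_pow, Pi.pow_apply, jFun,
    div_mul_cancel₀ _ (ModularForm.discriminant_ne_zero τ)]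

theorem jFun_mdiff : MDiff jFun := by
  rw [UpperHalfPlane.mdifferentiable_iff]
  exact ((UpperHalfPlane.mdifferentiable_iff.mp (ModularFormClass.holo ModularForm.E₄)).pow 3).div
    (UpperHalfPlane.mdifferentiable_iff.mp discriminant_mem_cuspRing.1)
    fun z _ => ModularForm.discriminant_ne_zero _

theorem jFun_tame : IsTame jFun := by
  refine isTame_iff.mpr ⟨1, ?_⟩
  rw [pow_one, jFun_mul_discriminant]
  exact ModularFormClass.bdd_at_infty (ModularForm.E₄.pow 3)

theorem jFun_mem_cuspRing : jFun ∈ cuspRing := by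
  refine ⟨jFun_mdiff, fun τ => ?_, jFun_tame⟩
  simp only [jFun, (modularForm_mem_cuspRing ModularForm.E₄).2.1, discriminant_mem_cuspRing.2.1]

theorem qExpansion_E4_eq :
    qExpansion 1 (ModularForm.E₄ : ℍ → ℂ)
      = ModularCurve.eisenstein4.map (Int.castRingHom ℂ) := by
  ext m
  rw [EisensteinSeries.E_qExpansion_coeff _ ⟨2, rfl⟩, PowerSeries.coeff_map,
    ModularCurve.eisenstein4, PowerSeries.coeff_mk]
  split_ifs with h
  · simp
  · rw [bernoulli_eq_bernoulli'_of_ne_one (by norm_num : (4 : ℕ) ≠ 1), bernoulli'_four]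
    simp [ArithmeticFunction.sigma_apply]
    ring

theorem toLS_discriminant_eq :
    toLS (qExpansion 1 Δ) = HahnSeries.single (1 : ℤ) 1 *
      toLS (ModularCurve.dedekindEtaUnit.map (Int.castRingHom ℂ)) := by
  rw [qExpansion_discriminant_eq, map_mul, toLS, HahnSeries.ofPowerSeries_X]

/-- `jq` really is the expansion of `j`. -/
theorem qLaurent_jFun : qLaurent jFun = ModularCurve.jqModC ℂ := by
  rw [qLaurent_eq jFun_mem_cuspRing (n := 1) (by
      rw [pow_one, jFun_mul_discriminant]
      exact ModularFormClass.bdd_at_infty (ModularForm.E₄.pow 3)),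
    div_eq_iff (pow_ne_zero _ toLS_discriminant_ne_zero), pow_one, pow_one, jFun_mul_discriminant,
    ModularForm.qExpansion_pow one_pos one_mem_strictPeriods_SL, qExpansion_E4_eq,
    toLS_discriminant_eq, ModularCurve.jqModC, ModularCurve.jNum, mul_mul_mul_comm,
    HahnSeries.single_mul_single, neg_add_cancel, mul_one, HahnSeries.single_zero_one, one_mul,
    ← map_mul toLS, ← map_mul (PowerSeries.map (Int.castRingHom ℂ)), mul_assoc,
    mul_comm ModularCurve.dedekindEtaUnitInv, ModularCurve.dedekindEtaUnit_mul_inv, mul_one,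
    map_pow (PowerSeries.map (Int.castRingHom ℂ))]

theorem qExpansion_discriminant_coeff_zero : (qExpansion 1 Δ).coeff 0 = 0 := by
  simpa using CuspFormClass.qExpansion_coeff_zero CuspForm.discriminant one_pos
    one_mem_strictPeriods_SL

/-- A level one invariant holomorphic function with `f Δ^n` bounded is a polynomial in `j`. -/
theorem eq_aeval_jFun_of_bounded (n : ℕ) :
    ∀ {f : ℍ → ℂ}, MDiff f → (∀ (γ : SL(2, ℤ)) (τ : ℍ), f (γ • τ) = f τ) →
      IsBoundedAtImInfty (f * Δ ^ n) →
      ∃ P : ℂ[X], P.natDegree ≤ n ∧ ∀ τ, f τ = P.eval (jFun τ) := by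
  induction n with
  | zero =>
    intro f hf hinv hb
    let F : ModularForm 𝒮ℒ 0 :=
      { toFun := f
        slash_action_eq' := by
          rintro _ ⟨γ, rfl⟩
          ext τ
          show (f ∣[(0 : ℤ)] γ) τ = f τ
          rw [ModularForm.SL_slash_apply, hinv]
          simp
        holo' := hf
        bdd_at_cusps' := by
          intro c hc
          rw [Subgroup.IsArithmetic.isCusp_iff_isCusp_SL2Z] at hc
          rw [OnePoint.isBoundedAt_iff_forall_SL2Z hc]
          intro γ _
          have : f ∣[(0 : ℤ)] γ = f := by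
            ext τ
            rw [ModularForm.SL_slash_apply, hinv]
            simp
          rw [this]
          simpa using hb }
    obtain ⟨c, hc⟩ := ModularFormClass.levelOne_weight_zero_const F
    exact ⟨C c, by simp, fun τ => (congrFun hc τ).trans (by simp)⟩
  | succ n ih =>
    intro f hf hinv hb
    have hper : ∀ τ : ℍ, f ((1 : ℝ) +ᵥ τ) = f τ := fun τ => by
      rw [← hinv ModularGroup.T τ, modular_T_smul]
    have hmem : f ∈ cuspRing := ⟨hf, hper, isTame_iff.mpr ⟨_, hb⟩⟩
    have hjm : jFun ∈ cuspRing := jFun_mem_cuspRing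
    -- the constant term of `f Δ^(n+1)`
    set a : ℂ := (qExpansion 1 (f * Δ ^ (n + 1))).coeff 0 with ha
    set g : ℍ → ℂ := f - a • jFun ^ (n + 1) with hg
    have hgmem : g ∈ cuspRing := sub_mem hmem (Subalgebra.smul_mem _ (pow_mem hjm _) a)
    have hE : ((ModularForm.E₄.pow 3 : ModularForm 𝒮ℒ _) : ℍ → ℂ) ^ (n + 1)
        = jFun ^ (n + 1) * Δ ^ (n + 1) := by rw [← mul_pow, jFun_mul_discriminant]
    have hEb : IsBoundedAtImInfty (jFun ^ (n + 1) * Δ ^ (n + 1)) := by
      rw [← hE, ← ModularForm.coe_pow]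
      exact ModularFormClass.bdd_at_infty _
    have hEm : jFun ^ (n + 1) * Δ ^ (n + 1) ∈ cuspRing :=
      mul_mem (pow_mem hjm _) (pow_mem discriminant_mem_cuspRing _)
    have hfm : f * Δ ^ (n + 1) ∈ cuspRing := mul_mem hmem (pow_mem discriminant_mem_cuspRing _)
    have hE0 : (qExpansion 1 (jFun ^ (n + 1) * Δ ^ (n + 1))).coeff 0 = 1 := by
      rw [← hE, ← ModularForm.coe_pow, ModularForm.qExpansion_pow one_pos one_mem_strictPeriods_SL,
        ModularForm.qExpansion_pow one_pos one_mem_strictPeriods_SL, qExpansion_E4_eq]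
      simp [PowerSeries.coeff_zero_eq_constantCoeff, map_pow, ← PowerSeries.coeff_zero_eq_constantCoeff_apply,
        ModularCurve.eisenstein4]
    have hgb : IsBoundedAtImInfty (g * Δ ^ (n + 1)) := by
      rw [hg, sub_mul, smul_mul_assoc]
      exact Asymptotics.IsBigO.sub hb (hEb.smul a)
    have hg0 : (qExpansion 1 (g * Δ ^ (n + 1))).coeff 0 = 0 := by
      rw [hg, sub_mul, smul_mul_assoc, qExpansion_sub (analyticAt_cuspFunction_of_mem hfm hb)
        (analyticAt_cuspFunction_of_mem (Subalgebra.smul_mem _ hEm a) (hEb.smul a)),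
        qExpansion_smul (analyticAt_cuspFunction_of_mem hEm hEb), map_sub,
        PowerSeries.coeff_smul, hE0, smul_eq_mul, mul_one, sub_self]
    -- vanishing at `∞` allows one to divide by `Δ`
    have hdec : (g * Δ ^ (n + 1)) =O[atImInfty] fun τ : ℍ => Real.exp (-2 * π * τ.im) := by
      have h1 : valueAtInfty (g * Δ ^ (n + 1)) = 0 := by
        rw [← hg0, qExpansion_coeff_zero one_pos
          (analyticAt_cuspFunction_of_mem (mul_mem hgmem (pow_mem discriminant_mem_cuspRing _)) hgb)
          (periodic_iff.mpr (mul_mem hgmem (pow_mem discriminant_mem_cuspRing _)).2.1)]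
      have h2 := exp_decay_sub_atImInfty one_pos
        (periodic_iff.mpr (mul_mem hgmem (pow_mem discriminant_mem_cuspRing (n + 1))).2.1)
        (mul_mem hgmem (pow_mem discriminant_mem_cuspRing (n + 1))).1 hgb
      simp only [h1, sub_zero] at h2
      simpa using! h2
    have hgb' : IsBoundedAtImInfty (g * Δ ^ n) := by
      have := (div_isBoundedUnder_of_isBigO
        (hdec.trans ModularForm.exp_isBigO_discriminant)).isBigO_one ℝ
      refine this.congr_left fun τ => ?_
      simp [pow_succ, ← mul_assoc, mul_div_cancel_right₀ _ (ModularForm.discriminant_ne_zero τ)]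
    have hginv : ∀ (γ : SL(2, ℤ)) (τ : ℍ), g (γ • τ) = g τ := fun γ τ => by
      simp only [hg, Pi.sub_apply, Pi.smul_apply, Pi.pow_apply, hinv, jFun_smul]
    obtain ⟨P, hP, hPg⟩ := ih hgmem.1 hginv hgb'
    refine ⟨P + C a * X ^ (n + 1), ?_, fun τ => ?_⟩
    · exact (natDegree_add_le _ _).trans (max_le (hP.trans n.le_succ) (natDegree_C_mul_X_pow_le _ _))
    · simp [← hPg, hg]

/-- A level one invariant holomorphic function, meromorphic at `i∞`, is a polynomial in `j`. -/
theorem exists_eq_aeval_jFun {f : ℍ → ℂ} (hf : MDiff f)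
    (hinv : ∀ (γ : SL(2, ℤ)) (τ : ℍ), f (γ • τ) = f τ) (ht : IsTame f) :
    ∃ P : ℂ[X], ∀ τ, f τ = P.eval (jFun τ) := by
  obtain ⟨n, hn⟩ := isTame_iff.mp ht
  obtain ⟨P, _, hP⟩ := eq_aeval_jFun_of_bounded n hf hinv hn
  exact ⟨P, hP⟩

/-- `|j| e^{-2π Im τ} → 1`. -/
theorem norm_jFun_mul_exp_tendsto :
    Tendsto (fun τ : ℍ => ‖jFun τ‖ * Real.exp (-2 * π * τ.im)) atImInfty (𝓝 1) := by
  have h1 : Tendsto (fun τ : ℍ => ModularForm.E₄ τ ^ 3) atImInfty (𝓝 1) := by
    have := (analyticAt_cuspFunction_of_mem (modularForm_mem_cuspRing ModularForm.E₄)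
      (ModularFormClass.bdd_at_infty _)).continuousAt.tendsto.comp
        (qParam_tendsto_atImInfty (h := 1) one_pos)
    have h0 : cuspFunction 1 (ModularForm.E₄ : ℍ → ℂ) 0 = 1 := by
      have := EisensteinSeries.E_qExpansion_coeff_zero (k := 4) (by norm_num) ⟨2, rfl⟩
      simpa [qExpansion_coeff] using this
    rw [h0] at this
    simpa using (this.congr fun τ =>
      SlashInvariantFormClass.eq_cuspFunction ModularForm.E₄ τ one_mem_strictPeriods_SL
        one_ne_zero).pow 3
  have h2 := (h1.div ModularForm.tendsto_atImInfty_tprod_one_sub_eta_q_pow one_ne_zero).norm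
  simp only [div_one, norm_one] at h2
  refine h2.congr fun τ => ?_
  have h3 := ModularForm.discriminant_ne_zero τ
  rw [ModularForm.discriminant_eq_q_prod] at h3
  rw [Pi.div_apply, jFun, ModularForm.discriminant_eq_q_prod, norm_div, norm_div, norm_mul,
    norm_qParam_one]
  have := norm_ne_zero_iff.mpr (right_ne_zero_of_mul h3)
  field_simp

end FermatAgent.ModFun

end
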