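import Mathlib.NumberTheory.ModularForms.LevelOne.GradedRing
import Mathlib.RingTheory.LaurentSeries
import Mathlib.RingTheory.HahnSeries.Summable

/-!
# Functions meromorphic at infinity and their expansions

Functions on the upper half plane that are meromorphic at infinity, and their
Laurent expansions in `q = exp (2 π i τ)`.
-/

set_option autoImplicit false

noncomputable section

open UpperHalfPlane hiding I
open Complex Filter Function Asymptotics
open scoped Real Topology MatrixGroups Manifold ModularForm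

namespace FermatAgent.ModFun

local notation "Δ" => ModularForm.discriminant

/-- At most exponential growth at `i∞`. -/
def IsTame (f : ℍ → ℂ) : Prop :=
  ∃ c : ℝ, f =O[atImInfty] fun τ ↦ Real.exp (c * τ.im)

theorem expIm_isBigO_of_le {a b : ℝ} (h : a ≤ b) :
    (fun τ : ℍ ↦ Real.exp (a * τ.im)) =O[atImInfty] fun τ ↦ Real.exp (b * τ.im) := by
  refine IsBigO.of_bound 1 (Eventually.of_forall fun τ => ?_)
  rw [one_mul, Real.norm_of_nonneg (Real.exp_pos _).le, Real.norm_of_nonneg (Real.exp_pos _).le]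
  exact Real.exp_le_exp.mpr (mul_le_mul_of_nonneg_right h τ.im_pos.le)

theorem IsTame.add {f g : ℍ → ℂ} (hf : IsTame f) (hg : IsTame g) : IsTame (f + g) := by
  obtain ⟨a, ha⟩ := hf
  obtain ⟨b, hb⟩ := hg
  exact ⟨max a b, (ha.trans (expIm_isBigO_of_le (le_max_left a b))).add
    (hb.trans (expIm_isBigO_of_le (le_max_right a b)))⟩

theorem IsTame.mul {f g : ℍ → ℂ} (hf : IsTame f) (hg : IsTame g) : IsTame (f * g) := by
  obtain ⟨a, ha⟩ := hf
  obtain ⟨b, hb⟩ := hg
  refine ⟨a + b, (ha.mul hb).trans_eventuallyEq (Eventually.of_forall fun τ => ?_)⟩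
  simp [add_mul, Real.exp_add]

theorem IsTame.of_bounded {f : ℍ → ℂ} (hf : IsBoundedAtImInfty f) : IsTame f :=
  ⟨0, hf.trans_eventuallyEq (Eventually.of_forall fun τ => by simp)⟩

theorem isTame_const (c : ℂ) : IsTame fun _ => c :=
  .of_bounded (const_boundedAtFilter _ c)

theorem isTame_algebraMap (c : ℂ) : IsTame (algebraMap ℂ (ℍ → ℂ) c) :=
  isTame_const c

theorem IsTame.comp {f : ℍ → ℂ} (hf : IsTame f) {g : ℍ → ℍ} {r : ℝ} (hr : 0 < r)
    (hg : ∀ τ, (g τ).im = r * τ.im) : IsTame (f ∘ g) := by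
  obtain ⟨c, hc⟩ := hf
  refine ⟨c * r, (hc.comp_tendsto ?_).trans_eventuallyEq (Eventually.of_forall fun τ => ?_)⟩
  · rw [atImInfty, tendsto_comap_iff]
    refine Tendsto.congr (fun τ => (hg τ).symm) ?_
    exact tendsto_comap.const_mul_atTop hr
  · simp [hg, mul_assoc]

theorem discriminant_isBigO_exp :
    Δ =O[atImInfty] fun τ : ℍ ↦ Real.exp (-2 * π * τ.im) := by
  simpa using CuspFormClass.exp_decay_atImInfty CuspForm.discriminant one_pos
    one_mem_strictPeriods_SL

theorem isBounded_discriminant_pow_mul {f : ℍ → ℂ} {c : ℝ}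
    (hf : f =O[atImInfty] fun τ ↦ Real.exp (c * τ.im)) {n : ℕ} (hn : c ≤ 2 * π * n) :
    IsBoundedAtImInfty (f * Δ ^ n) := by
  show (fun τ => f τ * Δ τ ^ n) =O[atImInfty] (1 : ℍ → ℝ)
  refine (hf.mul (discriminant_isBigO_exp.pow n)).trans ?_
  refine IsBigO.of_bound 1 (Eventually.of_forall fun τ => ?_)
  rw [← Real.exp_nat_mul, ← Real.exp_add, Pi.one_apply, norm_one, mul_one,
    Real.norm_of_nonneg (Real.exp_pos _).le, Real.exp_le_one_iff]
  nlinarith [τ.im_pos]

theorem isTame_iff {f : ℍ → ℂ} : IsTame f ↔ ∃ n : ℕ, IsBoundedAtImInfty (f * Δ ^ n) := by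
  constructor
  · rintro ⟨c, hc⟩
    obtain ⟨n, hn⟩ := exists_nat_ge (c / (2 * π))
    exact ⟨n, isBounded_discriminant_pow_mul hc (by rw [div_le_iff₀ (by positivity)] at hn; linarith)⟩
  · rintro ⟨n, hn⟩
    refine ⟨2 * π * n, ?_⟩
    have hinv : (fun τ : ℍ => (Δ τ)⁻¹) =O[atImInfty] fun τ => Real.exp (2 * π * τ.im) := by
      refine (ModularForm.exp_isBigO_discriminant.inv_rev
        (Eventually.of_forall fun τ h => absurd h (Real.exp_pos _).ne')).trans_eventuallyEq
        (Eventually.of_forall fun τ => ?_)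
      simp only [← Real.exp_neg]; ring_nf
    refine (Asymptotics.IsBigO.mul hn (hinv.pow n)).congr' (Eventually.of_forall fun τ => ?_)
      (Eventually.of_forall fun τ => ?_)
    · simp only [Pi.mul_apply, Pi.pow_apply, inv_pow]
      field_simp [ModularForm.discriminant_ne_zero τ]
    · simp only [Pi.one_apply, one_mul, ← Real.exp_nat_mul]
      ring_nf

/-- Holomorphic functions on `ℍ`, `1`-periodic and meromorphic at `i∞`. -/
def cuspRing : Subalgebra ℂ (ℍ → ℂ) where
  carrier := {f | MDiff f ∧ (∀ τ : ℍ, f ((1 : ℝ) +ᵥ τ) = f τ) ∧ IsTame f}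
  mul_mem' hf hg := ⟨hf.1.mul hg.1, fun τ => by simp [hf.2.1, hg.2.1], hf.2.2.mul hg.2.2⟩
  add_mem' hf hg := ⟨hf.1.add hg.1, fun τ => by simp [hf.2.1, hg.2.1], hf.2.2.add hg.2.2⟩
  algebraMap_mem' c := ⟨mdifferentiable_const, fun _ => rfl, isTame_algebraMap c⟩

theorem periodic_iff {f : ℍ → ℂ} :
    Periodic (f ∘ ofComplex) 1 ↔ ∀ τ : ℍ, f ((1 : ℝ) +ᵥ τ) = f τ := by
  constructor
  · intro h τ
    have := h (τ : ℂ)
    have h1 : (τ : ℂ) + 1 = (((1 : ℝ) +ᵥ τ : ℍ) : ℂ) := by simp [add_comm]
    rw [h1] at this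
    simpa only [comp_apply, ofComplex_apply] using this
  · intro h w
    by_cases! hw : 0 < w.im
    · have h2 : 0 < (w + 1).im := by simpa using hw
      simp only [comp_apply, ofComplex_apply_of_im_pos h2, ofComplex_apply_of_im_pos hw]
      convert h ⟨w, hw⟩ using 2
      ext
      simp [add_comm]
    · simp [ofComplex_apply_of_im_nonpos hw,
        ofComplex_apply_of_im_nonpos (show (w + 1).im ≤ 0 by simpa using hw)]

theorem discriminant_periodic : Periodic (Δ ∘ ofComplex) 1 := by
  simpa using SlashInvariantFormClass.periodic_comp_ofComplex CuspForm.discriminant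
    one_mem_strictPeriods_SL

theorem discriminant_mem_cuspRing : Δ ∈ cuspRing :=
  ⟨CuspForm.discriminant.holo', periodic_iff.mp discriminant_periodic,
    .of_bounded ModularForm.discriminant_isZeroAtImInfty.isBoundedAtImInfty⟩

theorem analyticAt_cuspFunction_of_mem {f : ℍ → ℂ} (hf : f ∈ cuspRing)
    (hb : IsBoundedAtImInfty f) : AnalyticAt ℂ (cuspFunction 1 f) 0 :=
  analyticAt_cuspFunction_zero one_pos (periodic_iff.mpr hf.2.1) hf.1 hb

theorem qExpansion_eq_zero_iff_of_mem {f : ℍ → ℂ} (hf : f ∈ cuspRing)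
    (hb : IsBoundedAtImInfty f) : qExpansion 1 f = 0 ↔ f = 0 :=
  qExpansion_eq_zero_iff one_pos (periodic_iff.mpr hf.2.1) hf.1 hb

theorem qExpansion_mul_of_mem {f g : ℍ → ℂ} (hf : f ∈ cuspRing) (hg : g ∈ cuspRing)
    (hfb : IsBoundedAtImInfty f) (hgb : IsBoundedAtImInfty g) :
    qExpansion 1 (f * g) = qExpansion 1 f * qExpansion 1 g :=
  qExpansion_mul (analyticAt_cuspFunction_of_mem hf hfb) (analyticAt_cuspFunction_of_mem hg hgb)

theorem isBounded_discriminant_pow (n : ℕ) : IsBoundedAtImInfty (Δ ^ n) := by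
  induction n with
  | zero => exact const_boundedAtFilter atImInfty (1 : ℂ)
  | succ n ih =>
    rw [pow_succ]
    exact ih.mul ModularForm.discriminant_isZeroAtImInfty.isBoundedAtImInfty

theorem qExpansion_discriminant_ne_zero : qExpansion 1 Δ ≠ 0 := by
  intro h
  simpa [h] using ModularForm.discriminant_qExpansion_coeff_one

theorem qExpansion_discriminant_pow (n : ℕ) :
    qExpansion 1 (Δ ^ n) = qExpansion 1 Δ ^ n := by
  induction n with
  | zero => simp [qExpansion_one]
  | succ n ih =>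
    rw [pow_succ, qExpansion_mul_of_mem (pow_mem discriminant_mem_cuspRing n)
      discriminant_mem_cuspRing (isBounded_discriminant_pow n)
      ModularForm.discriminant_isZeroAtImInfty.isBoundedAtImInfty, ih, pow_succ]

/-- The inclusion of power series in Laurent series. -/
abbrev toLS : PowerSeries ℂ →+* LaurentSeries ℂ := HahnSeries.ofPowerSeries ℤ ℂ

theorem toLS_discriminant_ne_zero : toLS (qExpansion 1 Δ) ≠ 0 :=
  (map_ne_zero_iff _ HahnSeries.ofPowerSeries_injective).mpr qExpansion_discriminant_ne_zero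

open scoped Classical in
/-- The Laurent expansion in `q` of a function meromorphic at `i∞` (junk value `0` otherwise). -/
def qLaurent (f : ℍ → ℂ) : LaurentSeries ℂ :=
  if h : ∃ n : ℕ, IsBoundedAtImInfty (f * Δ ^ n) then
    toLS (qExpansion 1 (f * Δ ^ h.choose)) / toLS (qExpansion 1 Δ) ^ h.choose
  else 0

theorem qLaurent_eq {f : ℍ → ℂ} (hf : f ∈ cuspRing) {n : ℕ}
    (hn : IsBoundedAtImInfty (f * Δ ^ n)) :
    qLaurent f = toLS (qExpansion 1 (f * Δ ^ n)) / toLS (qExpansion 1 Δ) ^ n := by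
  have h : ∃ n : ℕ, IsBoundedAtImInfty (f * Δ ^ n) := ⟨n, hn⟩
  rw [qLaurent, dif_pos h]
  have hm : IsBoundedAtImInfty (f * Δ ^ h.choose) := h.choose_spec
  set m := h.choose
  rw [div_eq_div_iff (pow_ne_zero _ toLS_discriminant_ne_zero)
    (pow_ne_zero _ toLS_discriminant_ne_zero), ← map_pow, ← map_pow, ← map_mul, ← map_mul,
    ← qExpansion_discriminant_pow, ← qExpansion_discriminant_pow,
    ← qExpansion_mul_of_mem (mul_mem hf (pow_mem discriminant_mem_cuspRing m))
      (pow_mem discriminant_mem_cuspRing n) hm (isBounded_discriminant_pow n),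
    ← qExpansion_mul_of_mem (mul_mem hf (pow_mem discriminant_mem_cuspRing n))
      (pow_mem discriminant_mem_cuspRing m) hn (isBounded_discriminant_pow m)]
  congr 2
  ring

theorem qLaurent_of_bounded {f : ℍ → ℂ} (hf : f ∈ cuspRing) (hb : IsBoundedAtImInfty f) :
    qLaurent f = toLS (qExpansion 1 f) := by
  have := qLaurent_eq hf (n := 0) (by simpa using hb)
  simpa using this

theorem qLaurent_algebraMap (c : ℂ) :
    qLaurent (algebraMap ℂ (ℍ → ℂ) c) = algebraMap ℂ (LaurentSeries ℂ) c := by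
  rw [qLaurent_of_bounded (algebraMap_mem cuspRing c) (const_boundedAtFilter _ c),
    Algebra.algebraMap_eq_smul_one, qExpansion_smul
      (analyticAt_cuspFunction_of_mem (one_mem _) (const_boundedAtFilter _ 1)),
    qExpansion_one, HahnSeries.algebraMap_apply', ← Algebra.algebraMap_eq_smul_one]

/-- The Laurent expansion at `i∞` as an algebra homomorphism. -/
def qLaurentHom : cuspRing →ₐ[ℂ] LaurentSeries ℂ where
  toFun f := qLaurent f
  map_one' := by
    rw [OneMemClass.coe_one, qLaurent_of_bounded (one_mem _) (const_boundedAtFilter _ 1),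
      qExpansion_one, map_one]
  map_zero' := by
    rw [ZeroMemClass.coe_zero, qLaurent_of_bounded (zero_mem _) (const_boundedAtFilter _ 0),
      qExpansion_zero, map_zero]
  map_mul' f g := by
    obtain ⟨n, hn⟩ := isTame_iff.mp f.2.2.2
    obtain ⟨m, hm⟩ := isTame_iff.mp g.2.2.2
    have he : ((f * g : cuspRing) : ℍ → ℂ) * Δ ^ (n + m)
        = ((f : ℍ → ℂ) * Δ ^ n) * ((g : ℍ → ℂ) * Δ ^ m) := by
      rw [MulMemClass.coe_mul]; ring
    have hp := fun k => pow_mem discriminant_mem_cuspRing k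
    rw [qLaurent_eq f.2 hn, qLaurent_eq g.2 hm, qLaurent_eq (f * g).2 (he ▸ hn.mul hm), he,
      qExpansion_mul_of_mem (mul_mem f.2 (hp n)) (mul_mem g.2 (hp m)) hn hm, map_mul,
      div_mul_div_comm, pow_add]
  map_add' f g := by
    obtain ⟨n, hn⟩ := isTame_iff.mp f.2.2.2
    obtain ⟨m, hm⟩ := isTame_iff.mp g.2.2.2
    have hn' : IsBoundedAtImInfty ((f : ℍ → ℂ) * Δ ^ (n + m)) := by
      rw [pow_add, ← mul_assoc]; exact hn.mul (isBounded_discriminant_pow m)
    have hm' : IsBoundedAtImInfty ((g : ℍ → ℂ) * Δ ^ (n + m)) := by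
      rw [add_comm n m, pow_add, ← mul_assoc]; exact hm.mul (isBounded_discriminant_pow n)
    have hs : IsBoundedAtImInfty (((f + g : cuspRing) : ℍ → ℂ) * Δ ^ (n + m)) := by
      rw [AddMemClass.coe_add, add_mul]; exact hn'.add hm'
    have hp := fun k => pow_mem discriminant_mem_cuspRing k
    rw [qLaurent_eq f.2 hn', qLaurent_eq g.2 hm', qLaurent_eq (f + g).2 hs, AddMemClass.coe_add,
      add_mul, qExpansion_add (analyticAt_cuspFunction_of_mem (mul_mem f.2 (hp _)) hn')
        (analyticAt_cuspFunction_of_mem (mul_mem g.2 (hp _)) hm'), map_add, add_div]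
  commutes' c := qLaurent_algebraMap c

@[simp] theorem qLaurentHom_apply (f : cuspRing) : qLaurentHom f = qLaurent f := rfl

theorem qLaurentHom_injective : Function.Injective qLaurentHom := by
  rw [injective_iff_map_eq_zero]
  intro f hf
  obtain ⟨n, hn⟩ := isTame_iff.mp f.2.2.2
  rw [qLaurentHom_apply, qLaurent_eq f.2 hn, div_eq_zero_iff,
    or_iff_left (pow_ne_zero _ toLS_discriminant_ne_zero),
    map_eq_zero_iff _ HahnSeries.ofPowerSeries_injective,
    qExpansion_eq_zero_iff_of_mem (mul_mem f.2 (pow_mem discriminant_mem_cuspRing n)) hn] at hf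
  ext τ
  simpa [ModularForm.discriminant_ne_zero] using congrFun hf τ

instance : IsDomain cuspRing := Function.Injective.isDomain qLaurentHom.toRingHom qLaurentHom_injective

end FermatAgent.ModFun

end
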