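import Fermat.Agent.ModCurve.Fun.Basic
import Fermat.Prelude.Def_ModularCurve_X0

/-!
# Affine changes of variable `τ ↦ d τ` and `τ ↦ τ + r` and their effect on Laurent expansions
-/

set_option autoImplicit false

noncomputable section

open UpperHalfPlane hiding I
open Complex Filter Function Asymptotics
open scoped Real Topology MatrixGroups Manifold ModularForm

namespace FermatAgent.ModFun

local notation "Δ" => ModularForm.discriminant
local notation "𝕢" => Periodic.qParam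

theorem mdiff_comp {f : ℍ → ℂ} (hf : MDiff f) {g : ℍ → ℍ}
    (hg : MDiff fun τ => (g τ : ℂ)) : MDiff (f ∘ g) := by
  rw [UpperHalfPlane.mdifferentiable_iff] at hf hg ⊢
  refine (hf.comp hg fun z _ => (g _).im_pos).congr fun z _ => ?_
  simp [ofComplex_apply]

/-- `τ ↦ d τ`. -/
def dil (d : ℕ) [NeZero d] (τ : ℍ) : ℍ :=
  (⟨(d : ℝ), Nat.cast_pos.mpr (NeZero.pos d)⟩ : {x : ℝ // 0 < x}) • τ

@[simp] theorem coe_dil (d : ℕ) [NeZero d] (τ : ℍ) : (dil d τ : ℂ) = d * τ := by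
  simp [dil]

@[simp] theorem dil_im (d : ℕ) [NeZero d] (τ : ℍ) : (dil d τ).im = d * τ.im := by
  simp [dil]

theorem dil_dil (a b : ℕ) [NeZero a] [NeZero b] [NeZero (a * b)] (τ : ℍ) :
    dil a (dil b τ) = dil (a * b) τ := by
  ext; simp [mul_assoc]

@[simp] theorem dil_one (τ : ℍ) : dil 1 τ = τ := by ext; simp

theorem dil_vadd (d : ℕ) [NeZero d] (r : ℝ) (τ : ℍ) :
    dil d (r +ᵥ τ) = ((d : ℝ) * r) +ᵥ dil d τ := by
  ext; simp [mul_add]

theorem vadd_natCast_fixed {f : ℍ → ℂ} (hf : ∀ τ : ℍ, f ((1 : ℝ) +ᵥ τ) = f τ) (n : ℕ) :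
    ∀ τ : ℍ, f ((n : ℝ) +ᵥ τ) = f τ := by
  induction n with
  | zero => simp
  | succ n ih =>
    intro τ
    rw [Nat.cast_succ, add_vadd, ih, hf]

theorem mem_cuspRing_comp_dil {f : ℍ → ℂ} (hf : f ∈ cuspRing) (d : ℕ) [NeZero d] :
    f ∘ dil d ∈ cuspRing := by
  refine ⟨mdiff_comp hf.1 ?_, fun τ => ?_, hf.2.2.comp (Nat.cast_pos.mpr (NeZero.pos d)) (dil_im d)⟩
  · simp only [coe_dil]
    exact mdifferentiable_const.mul mdifferentiable_coe
  · rw [comp_apply, dil_vadd, mul_one, comp_apply, vadd_natCast_fixed hf.2.1]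

theorem mem_cuspRing_comp_vadd {f : ℍ → ℂ} (hf : f ∈ cuspRing) (r : ℝ) :
    (fun τ : ℍ => f (r +ᵥ τ)) ∈ cuspRing := by
  refine ⟨mdiff_comp (g := fun τ : ℍ => r +ᵥ τ) hf.1 ?_, fun τ => ?_,
    hf.2.2.comp one_pos fun τ => by simp⟩
  · simp only [coe_vadd]
    exact mdifferentiable_const.add mdifferentiable_coe
  · show f (r +ᵥ (1 : ℝ) +ᵥ τ) = _
    rw [← add_vadd, add_comm, add_vadd, hf.2.1]

theorem isBounded_comp_of_im {f : ℍ → ℂ} (hf : IsBoundedAtImInfty f) {g : ℍ → ℍ} {r : ℝ}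
    (hr : 0 < r) (hg : ∀ τ, (g τ).im = r * τ.im) : IsBoundedAtImInfty (f ∘ g) := by
  refine IsBigO.comp_tendsto hf ?_
  rw [atImInfty, tendsto_comap_iff]
  exact (tendsto_comap.const_mul_atTop hr).congr fun τ => (hg τ).symm

theorem hasSum_of_mem {f : ℍ → ℂ} (hf : f ∈ cuspRing) (hb : IsBoundedAtImInfty f) (τ : ℍ) :
    HasSum (fun m : ℕ ↦ (qExpansion 1 f).coeff m • 𝕢 1 τ ^ m) (f τ) :=
  hasSum_qExpansion one_pos (periodic_iff.mpr hf.2.1) hf.1 hb τ

theorem qExpansion_eq_of_hasSum {f : ℍ → ℂ} (hf : f ∈ cuspRing) (hb : IsBoundedAtImInfty f)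
    {p : PowerSeries ℂ} (h : ∀ τ : ℍ, HasSum (fun m : ℕ ↦ p.coeff m • 𝕢 1 τ ^ m) (f τ)) :
    qExpansion 1 f = p :=
  PowerSeries.ext fun m => by
    let : FunLike (ℍ → ℂ) ℍ ℂ := ⟨id, fun _ _ h => h⟩
    exact (qExpansion_coeff_unique (F := ℍ → ℂ) f one_pos
      (analyticAt_cuspFunction_of_mem hf hb) h m).symm

/-- Reduce an identity between expansions to bounded functions. -/
theorem qLaurent_comp_eq {g : ℍ → ℍ} (φ : LaurentSeries ℂ →+* LaurentSeries ℂ)
    (hmem : ∀ f ∈ cuspRing, f ∘ g ∈ cuspRing)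
    (hbdd : ∀ f ∈ cuspRing, IsBoundedAtImInfty f → qLaurent (f ∘ g) = φ (qLaurent f))
    {f : ℍ → ℂ} (hf : f ∈ cuspRing) : qLaurent (f ∘ g) = φ (qLaurent f) := by
  obtain ⟨n, hn⟩ := isTame_iff.mp hf.2.2
  have hp := pow_mem discriminant_mem_cuspRing n
  have h1 : qLaurent ((f * Δ ^ n) ∘ g) = φ (qLaurent (f * Δ ^ n)) := hbdd _ (mul_mem hf hp) hn
  have h2 : qLaurent ((Δ ^ n) ∘ g) = φ (qLaurent (Δ ^ n)) :=
    hbdd _ hp (isBounded_discriminant_pow n)
  have h3 : qLaurent ((f * Δ ^ n) ∘ g) = qLaurent (f ∘ g) * qLaurent ((Δ ^ n) ∘ g) :=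
    map_mul qLaurentHom ⟨_, hmem _ hf⟩ ⟨_, hmem _ hp⟩
  have h4 : qLaurent (f * Δ ^ n) = qLaurent f * qLaurent (Δ ^ n) :=
    map_mul qLaurentHom ⟨_, hf⟩ ⟨_, hp⟩
  have h5 : qLaurent (Δ ^ n) ≠ 0 := by
    rw [qLaurent_of_bounded hp (isBounded_discriminant_pow n),
      map_ne_zero_iff _ HahnSeries.ofPowerSeries_injective, qExpansion_discriminant_pow]
    exact pow_ne_zero _ qExpansion_discriminant_ne_zero
  rw [h3, h4, map_mul, h2] at h1
  exact mul_right_cancel₀ ((map_ne_zero φ).mpr h5) h1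

/-- `q ↦ ζ q` on Laurent series. -/
def twist {R : Type*} [CommRing R] (ζ : Rˣ) : LaurentSeries R →+* LaurentSeries R where
  toFun x := ⟨fun n => ((ζ ^ n : Rˣ) : R) * x.coeff n,
    x.isPWO_support'.mono fun n hn h => hn (by simp [h])⟩
  map_one' := by
    ext n
    by_cases h : n = 0
    · subst h; simp
    · simp [HahnSeries.coeff_one, h]
  map_zero' := by ext n; simp
  map_add' x y := by ext n; simp [mul_add]
  map_mul' x y := by
    ext n
    simp only [HahnSeries.coeff_mul]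
    rw [Finset.mul_sum]
    refine Finset.sum_congr ?_ fun ij hij => ?_
    · ext ij
      simp [Units.mul_right_eq_zero]
    · simp only [Finset.mem_antidiagonal, HahnSeries.mem_support] at hij
      rw [← hij.2.2, zpow_add, Units.val_mul]
      ring

@[simp] theorem twist_coeff {R : Type*} [CommRing R] (ζ : Rˣ) (x : LaurentSeries R) (n : ℤ) :
    (twist ζ x).coeff n = ((ζ ^ n : Rˣ) : R) * x.coeff n := rfl

theorem qParam_dil (d : ℕ) [NeZero d] (τ : ℍ) : 𝕢 1 (dil d τ) = 𝕢 1 τ ^ d := by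
  simp [Periodic.qParam, ← Complex.exp_nat_mul]
  ring_nf

theorem qParam_vadd (r : ℝ) (τ : ℍ) :
    𝕢 1 ((r +ᵥ τ : ℍ) : ℂ) = cexp (2 * π * Complex.I * r) * 𝕢 1 τ := by
  simp [Periodic.qParam, ← Complex.exp_add]
  ring_nf

/-- The unit `exp (2 π i r)`. -/
def expUnit (r : ℝ) : ℂˣ := Units.mk0 (cexp (2 * π * Complex.I * r)) (Complex.exp_ne_zero _)

theorem qLaurent_comp_dil {f : ℍ → ℂ} (hf : f ∈ cuspRing) (d : ℕ) [NeZero d] :
    qLaurent (f ∘ dil d) = ModularCurve.qExpand ℂ d (qLaurent f) := by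
  refine qLaurent_comp_eq _ (fun f hf => mem_cuspRing_comp_dil hf d) (fun f hf hb => ?_) hf
  have hb' := isBounded_comp_of_im hb (Nat.cast_pos.mpr (NeZero.pos d)) (dil_im d)
  rw [qLaurent_of_bounded (mem_cuspRing_comp_dil hf d) hb', qLaurent_of_bounded hf hb]
  set p : PowerSeries ℂ :=
    PowerSeries.mk fun n => if d ∣ n then (qExpansion 1 f).coeff (n / d) else 0 with hp
  have hq : qExpansion 1 (f ∘ dil d) = p := by
    refine qExpansion_eq_of_hasSum (mem_cuspRing_comp_dil hf d) hb' fun τ => ?_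
    have hinj : Injective fun m : ℕ => d * m :=
      fun a b h => Nat.eq_of_mul_eq_mul_left (NeZero.pos d) h
    rw [← hinj.hasSum_iff]
    · show HasSum _ (f (dil d τ))
      convert hasSum_of_mem hf hb (dil d τ) using 2 with m
      rw [qParam_dil]
      simp [hp, ← pow_mul, Nat.mul_div_cancel_left _ (NeZero.pos d)]
    · intro n hn
      have : ¬ d ∣ n := fun ⟨m, hm⟩ => hn ⟨m, hm.symm⟩
      simp [hp, this]
  ext k
  by_cases hk : (d : ℤ) ∣ k
  · obtain ⟨m, rfl⟩ := hk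
    rw [ModularCurve.qExpand_coeff_mul, hq]
    rcases lt_or_ge m 0 with hm | hm
    · rw [ModularCurve.ofPowerSeries_coeff_of_neg _ hm, ModularCurve.ofPowerSeries_coeff_of_neg _
        (mul_neg_of_pos_of_neg (Int.natCast_pos.mpr (NeZero.pos d)) hm)]
    · lift m to ℕ using hm
      rw [← Nat.cast_mul, HahnSeries.ofPowerSeries_apply_coeff,
        HahnSeries.ofPowerSeries_apply_coeff, hp, PowerSeries.coeff_mk, if_pos (dvd_mul_right _ _),
        Nat.mul_div_cancel_left _ (NeZero.pos d)]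
  · rw [ModularCurve.qExpand_coeff_of_not_dvd d _ hk, hq]
    rcases lt_or_ge k 0 with hm | hm
    · rw [ModularCurve.ofPowerSeries_coeff_of_neg _ hm]
    · lift k to ℕ using hm
      rw [HahnSeries.ofPowerSeries_apply_coeff, hp, PowerSeries.coeff_mk,
        if_neg (mt Int.natCast_dvd_natCast.mpr hk)]

theorem qLaurent_comp_vadd {f : ℍ → ℂ} (hf : f ∈ cuspRing) (r : ℝ) :
    qLaurent (fun τ : ℍ => f (r +ᵥ τ)) = twist (expUnit r) (qLaurent f) := by
  refine qLaurent_comp_eq (g := fun τ : ℍ => r +ᵥ τ) _ (fun f hf => mem_cuspRing_comp_vadd hf r)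
    (fun f hf hb => ?_) hf
  have hb' : IsBoundedAtImInfty (fun τ : ℍ => f (r +ᵥ τ)) :=
    isBounded_comp_of_im (g := fun τ : ℍ => r +ᵥ τ) hb one_pos fun τ => by simp
  rw [qLaurent_of_bounded hf hb,
    show f ∘ (fun τ : ℍ => r +ᵥ τ) = fun τ : ℍ => f (r +ᵥ τ) from rfl,
    qLaurent_of_bounded (mem_cuspRing_comp_vadd hf r) hb']
  have hq : qExpansion 1 (fun τ : ℍ => f (r +ᵥ τ))
      = PowerSeries.rescale ((expUnit r : ℂˣ) : ℂ) (qExpansion 1 f) := by
    refine qExpansion_eq_of_hasSum (mem_cuspRing_comp_vadd hf r) hb' fun τ => ?_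
    convert hasSum_of_mem hf hb (r +ᵥ τ) using 2 with m
    rw [PowerSeries.coeff_rescale, qParam_vadd, mul_pow, smul_eq_mul, smul_eq_mul]
    simp only [expUnit, Units.val_mk0]
    ring
  ext k
  rw [twist_coeff, hq]
  rcases lt_or_ge k 0 with hm | hm
  · simp [ModularCurve.ofPowerSeries_coeff_of_neg _ hm]
  · lift k to ℕ using hm
    simp [HahnSeries.ofPowerSeries_apply_coeff, PowerSeries.coeff_rescale]

end FermatAgent.ModFun

end
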