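import Fermat.Agent.ModCurve.Fun.Level
import Fermat.Prelude.Def_ModularCurve_X0ModL

/-!
# The modular equation over `ℂ`

The modular equation over `ℂ`: `j(N τ)` has degree `[SL₂(ℤ) : Γ₀(N)]` over `ℂ(j)` and every
function in the level ring is rational in `j` and `j(N τ)`.
-/

set_option autoImplicit false

noncomputable section

open UpperHalfPlane hiding I
open Complex Filter Function CongruenceSubgroup Polynomial
open scoped Real Topology MatrixGroups Manifold ModularForm

namespace FermatAgent.ModFun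

/-- `SL₂(ℤ) ⧸ Γ₀(N)`. -/
abbrev CosetSpace (N : ℕ) := SL(2, ℤ) ⧸ Gamma0 N

instance (N : ℕ) [NeZero N] : Fintype (CosetSpace N) := Fintype.ofFinite _

/-- The conjugate of a `Γ₀(N)`-invariant function attached to a coset. -/
def conj {N : ℕ} (f : ℍ → ℂ) (c : CosetSpace N) (τ : ℍ) : ℂ := f (c.out⁻¹ • τ)

theorem conj_eq {N : ℕ} {f : ℍ → ℂ} (hf : f ∈ levelRing N) (g : SL(2, ℤ)) (τ : ℍ) :
    conj f (g : CosetSpace N) τ = f (g⁻¹ • τ) := by
  obtain ⟨h, hh⟩ := QuotientGroup.mk_out_eq_mul (Gamma0 N) g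
  rw [conj, hh, mul_inv_rev, mul_smul, hf.2.1 _ (inv_mem h.2)]

theorem conj_smul {N : ℕ} {f : ℍ → ℂ} (hf : f ∈ levelRing N) (c : CosetSpace N) (γ : SL(2, ℤ))
    (τ : ℍ) : conj f c (γ • τ) = conj f (γ⁻¹ • c) τ := by
  obtain ⟨g, rfl⟩ := QuotientGroup.mk_surjective c
  rw [conj_eq hf, MulAction.Quotient.smul_mk, smul_eq_mul, conj_eq hf, smul_smul, mul_inv_rev,
    inv_inv]

theorem conj_one {N : ℕ} {f : ℍ → ℂ} (hf : f ∈ levelRing N) (τ : ℍ) :
    conj f ((1 : SL(2, ℤ)) : CosetSpace N) τ = f τ := by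
  simp [conj_eq hf]

/-- A conjugate, as an element of the domain `tameRing`. -/
def conjT {N : ℕ} (f : levelRing N) (c : CosetSpace N) : tameRing :=
  ⟨conj f c, mem_tameRing_comp_smul f.2 _⟩

/-- `j(N ·)` as an element of the level ring. -/
def jdL (N : ℕ) [NeZero N] : levelRing N := ⟨jd N, jd_mem_levelRing dvd_rfl⟩

theorem conjT_jdL_injective (N : ℕ) [NeZero N] : Injective (conjT (jdL N)) := by
  intro c c' h
  obtain ⟨g, rfl⟩ := QuotientGroup.mk_surjective c
  obtain ⟨g', rfl⟩ := QuotientGroup.mk_surjective c'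
  rw [QuotientGroup.eq]
  refine (jd_smul_eq_iff N _).mp fun τ => ?_
  have hJ : jd N ∈ levelRing N := jd_mem_levelRing dvd_rfl
  have h1 := congrFun (congrArg Subtype.val h) (g' • τ)
  simp only [conjT, jdL] at h1
  rw [conj_eq hJ, conj_eq hJ, inv_smul_smul, smul_smul] at h1
  exact h1

/-- Evaluation at `τ` of elements of `tameRing`. -/
def evalT (τ : ℍ) : tameRing →+* ℂ := (Pi.evalRingHom (fun _ : ℍ => ℂ) τ).comp tameRing.val.toRingHom

@[simp] theorem evalT_apply (τ : ℍ) (f : tameRing) : evalT τ f = (f : ℍ → ℂ) τ := rfl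

/-- An `SL₂(ℤ)`-invariant polynomial over `tameRing` has coefficients polynomial in `j`. -/
theorem exists_bivariate (P : tameRing[X])
    (h : ∀ (γ : SL(2, ℤ)) (τ : ℍ), P.map (evalT (γ • τ)) = P.map (evalT τ)) :
    ∃ Q : ℂ[X][X], ∀ τ, Q.map (evalRingHom (jFun τ)) = P.map (evalT τ) := by
  have hc : ∀ i, ∃ q : ℂ[X], ∀ τ, ((P.coeff i : tameRing) : ℍ → ℂ) τ = q.eval (jFun τ) :=
    fun i => exists_eq_aeval_jFun (P.coeff i).2.1
      (fun γ τ => by simpa using congrArg (fun p => p.coeff i) (h γ τ)) (P.coeff i).2.2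
  choose q hq using hc
  refine ⟨∑ i ∈ Finset.range (P.natDegree + 1), C (q i) * X ^ i, fun τ => ?_⟩
  rw [Polynomial.map_sum]
  conv_rhs => rw [P.as_sum_range_C_mul_X_pow, Polynomial.map_sum]
  refine Finset.sum_congr rfl fun i _ => ?_
  simp [hq]

theorem sum_mul_prod_erase_comp {ι R : Type*} [Fintype ι] [DecidableEq ι] [CommSemiring R]
    (e : Equiv.Perm ι) (g h : ι → R) :
    ∑ c, g (e c) * ∏ c' ∈ Finset.univ.erase c, h (e c')
      = ∑ c, g c * ∏ c' ∈ Finset.univ.erase c, h c' := by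
  refine Fintype.sum_equiv e _ _ fun c => ?_
  congr 1
  exact Finset.prod_equiv e (fun c' => by simp) fun c' _ => rfl

open scoped Classical in
/-- The Lagrange interpolation polynomial of `f` at the conjugates of `j(N ·)`. -/
def lagrange {N : ℕ} [NeZero N] (f : levelRing N) : tameRing[X] :=
  ∑ c : CosetSpace N, C (conjT f c) * ∏ c' ∈ Finset.univ.erase c, (X - C (conjT (jdL N) c'))

open scoped Classical in
theorem map_lagrange {N : ℕ} [NeZero N] (f : levelRing N) (τ : ℍ) :
    (lagrange f).map (evalT τ) = ∑ c : CosetSpace N,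
      C (conj (f : ℍ → ℂ) c τ) * ∏ c' ∈ Finset.univ.erase c, (X - C (conj (jd N) c' τ)) := by
  simp [lagrange, Polynomial.map_sum, Polynomial.map_prod, conjT, jdL]

theorem map_lagrange_smul {N : ℕ} [NeZero N] (f : levelRing N) (γ : SL(2, ℤ)) (τ : ℍ) :
    (lagrange f).map (evalT (γ • τ)) = (lagrange f).map (evalT τ) := by
  classical
  have hJ : jd N ∈ levelRing N := jd_mem_levelRing dvd_rfl
  rw [map_lagrange, map_lagrange]
  have h1 : ∀ c : CosetSpace N, conj (f : ℍ → ℂ) c (γ • τ) = conj (f : ℍ → ℂ) (γ⁻¹ • c) τ :=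
    fun c => conj_smul f.2 c γ τ
  have h2 : ∀ c : CosetSpace N, conj (jd N) c (γ • τ) = conj (jd N) (γ⁻¹ • c) τ :=
    fun c => conj_smul hJ c γ τ
  simp only [h1, h2]
  exact sum_mul_prod_erase_comp (MulAction.toPerm γ⁻¹ : Equiv.Perm (CosetSpace N))
    (fun c => C (conj (f : ℍ → ℂ) c τ)) (fun c => X - C (conj (jd N) c τ))

open scoped Classical in
/-- `Φ_N'(j(N ·))`. -/
def jdDeriv (N : ℕ) [NeZero N] : tameRing :=
  ∏ c' ∈ Finset.univ.erase ((1 : SL(2, ℤ)) : CosetSpace N),
    (conjT (jdL N) ((1 : SL(2, ℤ)) : CosetSpace N) - conjT (jdL N) c')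

theorem jdDeriv_ne_zero (N : ℕ) [NeZero N] : jdDeriv N ≠ 0 := by
  classical
  refine Finset.prod_ne_zero_iff.mpr fun c hc => sub_ne_zero.mpr fun h => ?_
  exact (Finset.mem_erase.mp hc).1 (conjT_jdL_injective N h).symm

theorem eval_map_lagrange {N : ℕ} [NeZero N] (f : levelRing N) (τ : ℍ) :
    ((lagrange f).map (evalT τ)).eval (jd N τ)
      = (f : ℍ → ℂ) τ * ((jdDeriv N : tameRing) : ℍ → ℂ) τ := by
  classical
  have hJ : jd N ∈ levelRing N := jd_mem_levelRing dvd_rfl
  rw [map_lagrange, eval_finsetSum, Finset.sum_eq_single ((1 : SL(2, ℤ)) : CosetSpace N)]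
  · rw [← evalT_apply τ (jdDeriv N), jdDeriv, map_prod]
    simp [eval_prod, conj_one f.2, conjT, jdL, conj_one hJ]
  · intro c _ hc
    rw [eval_mul, eval_prod, mul_eq_zero]
    right
    refine Finset.prod_eq_zero (i := ((1 : SL(2, ℤ)) : CosetSpace N))
      (Finset.mem_erase.mpr ⟨hc.symm, Finset.mem_univ _⟩) ?_
    simp [conj_one hJ]
  · simp

theorem jd_mem_adjoin_eval {N : ℕ} [NeZero N] (Q : ℂ[X][X]) :
    (fun τ => (Q.map (evalRingHom (jFun τ))).eval (jd N τ))
      ∈ Algebra.adjoin ℂ ({jFun, jd N} : Set (ℍ → ℂ)) := by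
  have hj : jFun ∈ Algebra.adjoin ℂ ({jFun, jd N} : Set (ℍ → ℂ)) :=
    Algebra.subset_adjoin (Set.mem_insert _ _)
  have hJ : jd N ∈ Algebra.adjoin ℂ ({jFun, jd N} : Set (ℍ → ℂ)) :=
    Algebra.subset_adjoin (Set.mem_insert_of_mem _ rfl)
  have hcoef : ∀ p : ℂ[X], (fun τ => p.eval (jFun τ)) = Polynomial.aeval jFun p := fun p => by
    induction p using Polynomial.induction_on' with
    | add p q hp hq => rw [map_add, ← hp, ← hq]; ext τ; simp
    | monomial n a => ext τ; simp
  induction Q using Polynomial.induction_on' with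
  | add p q hp hq =>
    convert add_mem hp hq using 1
    ext τ; simp
  | monomial n a =>
    have : (fun τ => ((monomial n a).map (evalRingHom (jFun τ))).eval (jd N τ))
        = Polynomial.aeval jFun a * jd N ^ n := by
      ext τ; simp [← hcoef]
    rw [this]
    exact mul_mem (Algebra.adjoin_mono (Set.singleton_subset_iff.mpr (Set.mem_insert _ _))
      (aeval_mem_adjoin_singleton ℂ jFun)) (pow_mem hJ n)

/-- Every element of the level ring is rational in `j` and `j(N ·)`. -/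
theorem exists_mul_mem_adjoin {N : ℕ} [NeZero N] (f : levelRing N) :
    ∃ p ∈ Algebra.adjoin ℂ ({jFun, jd N} : Set (ℍ → ℂ)),
      ∃ q ∈ Algebra.adjoin ℂ ({jFun, jd N} : Set (ℍ → ℂ)), q ≠ 0 ∧ (f : ℍ → ℂ) * q = p := by
  obtain ⟨P, hP⟩ := exists_bivariate _ (map_lagrange_smul f)
  obtain ⟨R, hR⟩ := exists_bivariate _ (map_lagrange_smul (1 : levelRing N))
  have hD : (fun τ => (R.map (evalRingHom (jFun τ))).eval (jd N τ))
      = ((jdDeriv N : tameRing) : ℍ → ℂ) := by
    ext τ; rw [hR, eval_map_lagrange, OneMemClass.coe_one, Pi.one_apply, one_mul]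
  refine ⟨_, jd_mem_adjoin_eval P, _, jd_mem_adjoin_eval R, ?_, ?_⟩
  · rw [hD]
    exact fun h => jdDeriv_ne_zero N (Subtype.ext h)
  · rw [hD]
    ext τ
    rw [Pi.mul_apply, hP, eval_map_lagrange]

/-- The modular polynomial over `ℂ`, as a product over cosets. -/
def modEqT (N : ℕ) [NeZero N] : tameRing[X] :=
  ∏ c : CosetSpace N, (X - C (conjT (jdL N) c))

theorem map_modEqT (N : ℕ) [NeZero N] (τ : ℍ) :
    (modEqT N).map (evalT τ) = ∏ c : CosetSpace N, (X - C (conj (jd N) c τ)) := by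
  simp [modEqT, Polynomial.map_prod, conjT, jdL]

theorem map_modEqT_smul (N : ℕ) [NeZero N] (γ : SL(2, ℤ)) (τ : ℍ) :
    (modEqT N).map (evalT (γ • τ)) = (modEqT N).map (evalT τ) := by
  rw [map_modEqT, map_modEqT]
  refine Fintype.prod_equiv (MulAction.toPerm γ⁻¹) _ _ fun c => ?_
  rw [MulAction.toPerm_apply, conj_smul (jd_mem_levelRing dvd_rfl)]

theorem aeval_jqModC_eq_zero {K : Type*} [Field K] {p : K[X]}
    (h : aeval (ModularCurve.jqModC K) p = 0) : p = 0 := by
  by_contra hp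
  have := congrArg (fun x : LaurentSeries K => x.coeff (-(p.natDegree : ℤ))) h
  simp only [aeval_eq_sum_range, HahnSeries.coeff_sum, HahnSeries.coeff_zero, Algebra.smul_def,
    ModularCurve.algebraMap_laurentSeries_eq_single, HahnSeries.coeff_single_mul, sub_zero] at this
  rw [Finset.sum_eq_single p.natDegree] at this
  · rw [ModularCurve.coeff_jqModC_pow_self, mul_one] at this
    exact hp (Polynomial.leadingCoeff_eq_zero.mp this)
  · intro i hi hne
    rw [Finset.mem_range] at hi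
    rw [ModularCurve.coeff_jqModC_pow_of_lt K (by omega), mul_zero]
  · simp

theorem aeval_qLaurent_jFun (p : ℂ[X]) :
    qLaurent (fun τ => p.eval (jFun τ)) = aeval (ModularCurve.jqModC ℂ) p := by
  have h : (fun τ => p.eval (jFun τ)) = ((aeval (⟨jFun, jFun_mem_cuspRing⟩ : cuspRing) p : cuspRing) : ℍ → ℂ) := by
    induction p using Polynomial.induction_on' with
    | add p q hp hq => ext τ; simp [← hp, ← hq]
    | monomial n a => ext τ; simp
  rw [h, ← qLaurentHom_apply, ← aeval_algHom_apply]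
  simp [qLaurent_jFun]

theorem eval_jFun_eq_zero {p : ℂ[X]} (h : ∀ τ, p.eval (jFun τ) = 0) : p = 0 := by
  refine aeval_jqModC_eq_zero ?_
  rw [← aeval_qLaurent_jFun, funext h]
  exact map_zero qLaurentHom

theorem bivariate_ext {P Q : ℂ[X][X]}
    (h : ∀ τ, P.map (evalRingHom (jFun τ)) = Q.map (evalRingHom (jFun τ))) : P = Q := by
  ext1 i
  refine sub_eq_zero.mp (eval_jFun_eq_zero fun τ => ?_)
  rw [eval_sub, sub_eq_zero]
  simpa using congrArg (fun p => p.coeff i) (h τ)

/-- `j(N ·)` is a root of a monic polynomial of degree the index over `ℂ[j]`, with roots the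
conjugates. -/
theorem exists_modEq (N : ℕ) [NeZero N] :
    ∃ Φ : ℂ[X][X], Φ.Monic ∧ Φ.natDegree = (Gamma0 N).index ∧
      ∀ τ, Φ.map (evalRingHom (jFun τ)) = ∏ c : CosetSpace N, (X - C (conj (jd N) c τ)) := by
  obtain ⟨Φ, hΦ⟩ := exists_bivariate _ (map_modEqT_smul N)
  simp only [map_modEqT] at hΦ
  have hcard : (Gamma0 N).index = Fintype.card (CosetSpace N) := by
    rw [Subgroup.index, Nat.card_eq_fintype_card]
  have hdeg : ∀ τ, (Φ.map (evalRingHom (jFun τ))).natDegree = (Gamma0 N).index := fun τ => by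
    rw [hΦ, natDegree_prod _ _ (fun c _ => X_sub_C_ne_zero _)]
    simp [hcard]
  have hlead : ∀ τ, (Φ.map (evalRingHom (jFun τ))).coeff (Gamma0 N).index = 1 := fun τ => by
    rw [← hdeg τ, coeff_natDegree, hΦ]
    exact (monic_prod_of_monic _ _ fun c _ => monic_X_sub_C _).leadingCoeff
  have h1 : Φ.coeff (Gamma0 N).index = 1 := sub_eq_zero.mp <| eval_jFun_eq_zero fun τ => by
    rw [eval_sub, eval_one, sub_eq_zero]
    simpa using hlead τ
  have h2 : Φ.natDegree ≤ (Gamma0 N).index := natDegree_le_iff_coeff_eq_zero.mpr fun i hi =>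
    eval_jFun_eq_zero fun τ => by
      simpa using coeff_eq_zero_of_natDegree_lt (p := Φ.map (evalRingHom (jFun τ)))
        (by rw [hdeg τ]; exact hi)
  exact ⟨Φ, monic_of_natDegree_le_of_coeff_eq_one _ h2 h1,
    le_antisymm h2 (le_natDegree_of_ne_zero (by simp [h1])), hΦ⟩

/-- There is no relation of degree less than the index. -/
theorem eq_zero_of_eval_jd {N : ℕ} [NeZero N] {P : ℂ[X][X]}
    (hdeg : P.natDegree < (Gamma0 N).index)
    (h : ∀ τ, (P.map (evalRingHom (jFun τ))).eval (jd N τ) = 0) : P = 0 := by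
  let jT : tameRing := ⟨jFun, jFun_mdiff, jFun_tame⟩
  have hev : ∀ τ, (evalT τ).comp (aeval jT : ℂ[X] →ₐ[ℂ] tameRing).toRingHom
      = evalRingHom (jFun τ) := fun τ => by
    refine Polynomial.ringHom_ext (fun a => ?_) ?_ <;> simp [jT]
  have key : P.map (aeval jT : ℂ[X] →ₐ[ℂ] tameRing).toRingHom = 0 := by
    refine Polynomial.eq_zero_of_natDegree_lt_card_of_eval_eq_zero _ (conjT_jdL_injective N)
      (fun c => ?_) ?_
    · refine Subtype.ext (funext fun τ => ?_)
      change evalT τ _ = _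
      rw [← Polynomial.eval₂_at_apply, ← eval_map, Polynomial.map_map, hev,
        show evalT τ (conjT (jdL N) c) = jd N (c.out⁻¹ • τ) from rfl, ← jFun_smul c.out⁻¹ τ]
      exact h _
    · refine natDegree_map_le.trans_lt ?_
      rwa [← Nat.card_eq_fintype_card]
  refine bivariate_ext fun τ => ?_
  rw [← hev τ, ← Polynomial.map_map, key]
  simp

end FermatAgent.ModFun

end
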