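import Fermat.Agent.ModCurve.Fun.Maps
import Mathlib.Analysis.SpecialFunctions.Log.Summable

/-!
# The product expansion of the discriminant

The `q`-expansion of `∏ (1 - q ^ (n + 1))` and of the discriminant: the analytic product agrees
with the formal one of the Prelude.
-/

set_option autoImplicit false

noncomputable section

open UpperHalfPlane hiding I
open Complex Filter Function Asymptotics
open scoped Real Topology MatrixGroups Manifold ModularForm

namespace FermatAgent.ModFun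

local notation "Δ" => ModularForm.discriminant
local notation "𝕢" => Periodic.qParam

theorem norm_qParam_one (τ : ℍ) : ‖𝕢 1 (τ : ℂ)‖ = Real.exp (-2 * π * τ.im) := by
  rw [Periodic.norm_qParam, div_one]; rfl

theorem norm_qParam_lt (τ : ℍ) : ‖𝕢 1 (τ : ℂ)‖ < 1 := by
  simpa using norm_qParam_lt_one 1 τ

theorem qpar_mem_cuspRing : (fun τ : ℍ => 𝕢 1 (τ : ℂ)) ∈ cuspRing := by
  have hb : IsBoundedAtImInfty (fun τ : ℍ => 𝕢 1 (τ : ℂ)) :=
    (qParam_tendsto_atImInfty one_pos).isBigO_one ℝ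
  refine ⟨?_, fun τ => ?_, .of_bounded hb⟩
  · rw [UpperHalfPlane.mdifferentiable_iff]
    refine ((Periodic.differentiable_qParam (h := 1)).differentiableOn).congr fun z hz => ?_
    simp [ofComplex_apply_of_im_pos hz]
  · show 𝕢 1 (((1 : ℝ) +ᵥ τ : ℍ) : ℂ) = _
    rw [qParam_vadd]
    simp [Complex.exp_two_pi_mul_I]

theorem qpar_bounded : IsBoundedAtImInfty (fun τ : ℍ => 𝕢 1 (τ : ℂ)) :=
  (qParam_tendsto_atImInfty one_pos).isBigO_one ℝ

theorem qExpansion_qpar : qExpansion 1 (fun τ : ℍ => 𝕢 1 (τ : ℂ)) = PowerSeries.X := by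
  refine qExpansion_eq_of_hasSum qpar_mem_cuspRing qpar_bounded fun τ => ?_
  convert hasSum_single (f := fun m : ℕ => (PowerSeries.X : PowerSeries ℂ).coeff m • 𝕢 1 (τ : ℂ) ^ m)
    1 (fun b hb => by simp [PowerSeries.coeff_X, hb]) using 1
  simp

/-- `∏ (1 - q ^ (n+1))` as a function on `ℍ`. -/
def etaTail (k : ℕ) (τ : ℍ) : ℂ := ∏' i : ℕ, (1 - 𝕢 1 (τ : ℂ) ^ (i + k + 1))

theorem multipliable_etaTail (k : ℕ) (τ : ℍ) :
    Multipliable fun i : ℕ => 1 - 𝕢 1 (τ : ℂ) ^ (i + k + 1) := by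
  apply multipliable_one_add_of_summable (f := fun n ↦ -𝕢 1 (τ : ℂ) ^ (n + k + 1))
  simpa [add_assoc] using (summable_nat_add_iff (k + 1)).mpr
    (summable_geometric_of_lt_one (norm_nonneg _) (norm_qParam_lt τ))

theorem etaTail_succ (k : ℕ) (τ : ℍ) :
    etaTail k τ = (1 - 𝕢 1 (τ : ℂ) ^ (k + 1)) * etaTail (k + 1) τ := by
  have h := multipliable_etaTail (k + 1) τ
  rw [etaTail, etaTail]
  have h' : Multipliable fun i : ℕ => 1 - 𝕢 1 (τ : ℂ) ^ (i + 1 + k + 1) :=
    h.congr fun i => by ring_nf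
  rw [tprod_eq_zero_mul' (f := fun i : ℕ => 1 - 𝕢 1 (τ : ℂ) ^ (i + k + 1)) h', zero_add]
  congr 1
  exact tprod_congr fun i => by ring_nf

theorem etaTail_zero_eq (k : ℕ) (τ : ℍ) :
    etaTail 0 τ = (∏ i ∈ Finset.range k, (1 - 𝕢 1 (τ : ℂ) ^ (i + 1))) * etaTail k τ := by
  induction k with
  | zero => simp
  | succ k ih => rw [ih, Finset.prod_range_succ, etaTail_succ k τ, mul_assoc]

theorem etaTail_sub_one_bound (k : ℕ) (τ : ℍ) (hq : ‖𝕢 1 (τ : ℂ)‖ ≤ 1 / 4) :
    ‖etaTail k τ - 1‖ ≤ 4 * ‖𝕢 1 (τ : ℂ)‖ ^ (k + 1) := by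
  set r := ‖𝕢 1 (τ : ℂ)‖ with hr
  have hr0 : 0 ≤ r := norm_nonneg _
  have hr1 : r < 1 := by linarith
  have hsum : HasSum (fun i : ℕ => r ^ (i + k + 1)) (r ^ (k + 1) * (1 - r)⁻¹) := by
    simpa [add_assoc, pow_add, mul_comm] using
      (hasSum_geometric_of_lt_one hr0 hr1).mul_left (r ^ (k + 1))
  have hinv : (1 - r)⁻¹ ≤ 2 := by rw [inv_le_comm₀ (by linarith) two_pos]; linarith
  set S := r ^ (k + 1) * (1 - r)⁻¹
  have hS0 : 0 ≤ S := mul_nonneg (pow_nonneg hr0 _) (inv_nonneg.mpr (by linarith))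
  have hS : S ≤ 2 * r ^ (k + 1) := by
    rw [mul_comm 2]; exact mul_le_mul_of_nonneg_left hinv (pow_nonneg hr0 _)
  have hS1 : |S| ≤ 1 := by
    rw [abs_of_nonneg hS0]
    have : r ^ (k + 1) ≤ r := pow_le_of_le_one hr0 hr1.le k.succ_ne_zero
    linarith
  refine le_trans ?_ (show Real.exp S - 1 ≤ 4 * r ^ (k + 1) by
    have := (abs_le.mp (Real.abs_exp_sub_one_le hS1)).2
    rw [abs_of_nonneg hS0] at this
    linarith)
  refine le_of_tendsto (((multipliable_etaTail k τ).tendsto_prod_tprod_nat).sub_const 1).norm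
    (Eventually.of_forall fun n => ?_)
  simp_rw [sub_eq_add_neg (1 : ℂ)]
  refine (Finset.norm_prod_one_add_sub_one_le _ _).trans ?_
  rw [sub_le_sub_iff_right, Real.exp_le_exp]
  simp only [norm_neg, norm_pow]
  exact sum_le_hasSum _ (fun i _ => by positivity) hsum

theorem etaTail_sub_one_isBigO (k : ℕ) :
    (fun τ : ℍ => etaTail k τ - 1) =O[atImInfty]
      fun τ : ℍ => Real.exp (-2 * π * τ.im) ^ (k + 1) := by
  refine IsBigO.of_bound 4 ?_
  filter_upwards [(qParam_tendsto_atImInfty one_pos).eventually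
    (Metric.closedBall_mem_nhds (0 : ℂ) (by norm_num : (0 : ℝ) < 1 / 4))] with τ hτ
  rw [dist_zero_right] at hτ
  rw [norm_pow, Real.norm_of_nonneg (Real.exp_pos _).le, ← norm_qParam_one]
  exact etaTail_sub_one_bound k τ hτ

theorem etaTail_bounded (k : ℕ) : IsBoundedAtImInfty (etaTail k) := by
  have h1 : (fun τ : ℍ => etaTail k τ - 1) =O[atImInfty] (1 : ℍ → ℝ) :=
    (etaTail_sub_one_isBigO k).trans (IsBigO.of_bound 1 (Eventually.of_forall fun τ => by
      rw [norm_pow, Real.norm_of_nonneg (Real.exp_pos _).le, Pi.one_apply, norm_one, mul_one]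
      exact pow_le_one₀ (Real.exp_pos _).le
        (Real.exp_le_one_iff.mpr (by nlinarith [τ.im_pos, Real.pi_pos]))))
  show etaTail k =O[atImInfty] (1 : ℍ → ℝ)
  simpa using h1.add (const_boundedAtFilter atImInfty (1 : ℂ))

/-- `∏_{i<k} (1 - q^(i+1))` as an element of `cuspRing`. -/
def etaHead (k : ℕ) : cuspRing :=
  ∏ i ∈ Finset.range k, (1 - ⟨_, qpar_mem_cuspRing⟩ ^ (i + 1))

theorem etaHead_apply (k : ℕ) (τ : ℍ) :
    ((etaHead k : cuspRing) : ℍ → ℂ) τ = ∏ i ∈ Finset.range k, (1 - 𝕢 1 (τ : ℂ) ^ (i + 1)) := by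
  simp [etaHead]

theorem etaHead_ne_zero (k : ℕ) (τ : ℍ) : ((etaHead k : cuspRing) : ℍ → ℂ) τ ≠ 0 := by
  rw [etaHead_apply]
  exact Finset.prod_ne_zero_iff.mpr fun i _ => ModularForm.one_sub_eta_q_ne_zero i τ.2

theorem etaTail_mem (k : ℕ) : etaTail k ∈ cuspRing := by
  have h0 : MDiff (etaTail 0) := by
    rw [UpperHalfPlane.mdifferentiable_iff]
    intro z hz
    refine ((ModularForm.differentiableAt_eta_tprod hz).differentiableWithinAt).congr
      (fun w hw => ?_) ?_
    · simp [etaTail, ModularForm.eta_q, ofComplex_apply_of_im_pos hw]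
    · simp [etaTail, ModularForm.eta_q, ofComplex_apply_of_im_pos hz]
  refine ⟨?_, fun τ => ?_, .of_bounded (etaTail_bounded k)⟩
  · have he : etaTail k = fun τ => etaTail 0 τ / ((etaHead k : cuspRing) : ℍ → ℂ) τ := by
      ext τ
      rw [eq_div_iff (etaHead_ne_zero k τ), etaHead_apply, etaTail_zero_eq k τ, mul_comm]
    rw [UpperHalfPlane.mdifferentiable_iff, he]
    exact (UpperHalfPlane.mdifferentiable_iff.mp h0).div
      (UpperHalfPlane.mdifferentiable_iff.mp (etaHead k).2.1) fun z _ => etaHead_ne_zero k _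
  · simp only [etaTail, qParam_vadd, Complex.ofReal_one, mul_one, Complex.exp_two_pi_mul_I, one_mul]

theorem X_pow_dvd_qExpansion {f : ℍ → ℂ} (hf : f ∈ cuspRing) (k : ℕ)
    (h : f =O[atImInfty] fun τ : ℍ => Real.exp (-2 * π * τ.im) ^ k) :
    PowerSeries.X ^ k ∣ qExpansion 1 f := by
  have hΔ := fun τ => pow_ne_zero k (ModularForm.discriminant_ne_zero τ)
  set g : ℍ → ℂ := fun τ => f τ / Δ τ ^ k with hg
  have hg1 : MDiff g := by
    rw [UpperHalfPlane.mdifferentiable_iff]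
    exact (UpperHalfPlane.mdifferentiable_iff.mp hf.1).div
      ((UpperHalfPlane.mdifferentiable_iff.mp discriminant_mem_cuspRing.1).pow k) fun z _ => hΔ _
  have hgb : IsBoundedAtImInfty g :=
    (div_isBoundedUnder_of_isBigO
      (h.trans (ModularForm.exp_isBigO_discriminant.pow k))).isBigO_one ℝ
  have hgm : g ∈ cuspRing :=
    ⟨hg1, fun τ => by simp [hg, hf.2.1, discriminant_mem_cuspRing.2.1], .of_bounded hgb⟩
  have he : f = g * Δ ^ k := by
    ext τ; simp [hg, div_mul_cancel₀ _ (hΔ τ)]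
  rw [he, qExpansion_mul_of_mem hgm (pow_mem discriminant_mem_cuspRing k) hgb
    (isBounded_discriminant_pow k), qExpansion_discriminant_pow]
  refine dvd_mul_of_dvd_right (pow_dvd_pow_of_dvd ?_ k) _
  rw [PowerSeries.X_dvd_iff, ← PowerSeries.coeff_zero_eq_constantCoeff_apply]
  simpa using CuspFormClass.qExpansion_coeff_zero CuspForm.discriminant one_pos
    one_mem_strictPeriods_SL

theorem etaHead_bounded (k : ℕ) : IsBoundedAtImInfty ((etaHead k : cuspRing) : ℍ → ℂ) := by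
  rw [show ((etaHead k : cuspRing) : ℍ → ℂ)
    = fun τ : ℍ => ∏ i ∈ Finset.range k, (1 - 𝕢 1 (τ : ℂ) ^ (i + 1)) from funext (etaHead_apply k)]
  have : Tendsto (fun τ : ℍ => ∏ i ∈ Finset.range k, (1 - 𝕢 1 (τ : ℂ) ^ (i + 1))) atImInfty
      (𝓝 (∏ i ∈ Finset.range k, (1 - (0 : ℂ) ^ (i + 1)))) :=
    tendsto_finsetProd _ fun i _ =>
      tendsto_const_nhds.sub ((qParam_tendsto_atImInfty one_pos).pow _)
  exact this.isBigO_one ℝ

theorem qExpansion_etaHead (k : ℕ) :
    qExpansion 1 ((etaHead k : cuspRing) : ℍ → ℂ)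
      = ∏ i ∈ Finset.range k, (1 - PowerSeries.X ^ (i + 1)) := by
  have hinj : Injective (toLS : PowerSeries ℂ → LaurentSeries ℂ) :=
    HahnSeries.ofPowerSeries_injective
  apply hinj
  rw [← qLaurent_of_bounded (etaHead k).2 (etaHead_bounded k), ← qLaurentHom_apply, etaHead,
    map_prod, map_prod]
  refine Finset.prod_congr rfl fun i _ => ?_
  simp only [map_sub, map_pow, map_one, qLaurentHom_apply,
    qLaurent_of_bounded qpar_mem_cuspRing qpar_bounded, qExpansion_qpar]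

theorem coeff_qExpansion_etaTail_zero (n : ℕ) :
    (qExpansion 1 (etaTail 0)).coeff n
      = ((∏ i ∈ Finset.range n, (1 - PowerSeries.X ^ (i + 1))) : PowerSeries ℂ).coeff n := by
  have he : etaTail 0 = ((etaHead n : cuspRing) : ℍ → ℂ) * etaTail n := by
    ext τ; rw [Pi.mul_apply, etaHead_apply, ← etaTail_zero_eq]
  have h1 : PowerSeries.X ^ (n + 1) ∣ qExpansion 1 (etaTail n) - 1 := by
    have := X_pow_dvd_qExpansion (f := etaTail n - 1) (sub_mem (etaTail_mem n) (one_mem _)) (n + 1)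
      (etaTail_sub_one_isBigO n)
    rwa [qExpansion_sub (analyticAt_cuspFunction_of_mem (etaTail_mem n) (etaTail_bounded n))
      (analyticAt_cuspFunction_of_mem (one_mem _) (const_boundedAtFilter _ 1)), qExpansion_one]
      at this
  obtain ⟨w, hw⟩ := h1
  rw [he, qExpansion_mul_of_mem (etaHead n).2 (etaTail_mem n) (etaHead_bounded n)
    (etaTail_bounded n), qExpansion_etaHead, eq_add_of_sub_eq hw, mul_add, mul_one, map_add,
    mul_left_comm, PowerSeries.coeff_X_pow_mul', if_neg (by omega), zero_add]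

open scoped PowerSeries.WithPiTopology in
theorem coeff_etaProd (n : ℕ) :
    (ModularCurve.etaProd).coeff n
      = ((∏ i ∈ Finset.range n, (1 - PowerSeries.X ^ (i + 1))) : PowerSeries ℤ).coeff n := by
  have h := ((PowerSeries.WithPiTopology.continuous_coeff ℤ n).tendsto _).comp
    (PowerSeries.WithPiTopology.multipliable_one_sub_X_pow ℤ).tendsto_prod_tprod_nat
  refine tendsto_nhds_unique h (tendsto_atTop_of_eventually_const (i₀ := n) fun m hm => ?_)
  show ((∏ i ∈ Finset.range m, (1 - PowerSeries.X ^ (i + 1))) : PowerSeries ℤ).coeff n = _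
  induction m, hm using Nat.le_induction with
  | base => rfl
  | succ m hm ih =>
    rw [Finset.prod_range_succ, mul_sub, mul_one, map_sub, mul_comm, PowerSeries.coeff_X_pow_mul',
      if_neg (by omega), sub_zero, ih]

theorem qExpansion_etaTail_zero :
    qExpansion 1 (etaTail 0) = ModularCurve.etaProd.map (Int.castRingHom ℂ) := by
  ext n
  rw [coeff_qExpansion_etaTail_zero, PowerSeries.coeff_map, coeff_etaProd, ← PowerSeries.coeff_map]
  congr 1
  simp [map_prod]

theorem qExpansion_discriminant_eq :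
    qExpansion 1 Δ
      = PowerSeries.X * ModularCurve.dedekindEtaUnit.map (Int.castRingHom ℂ) := by
  have he : Δ = (fun τ : ℍ => 𝕢 1 (τ : ℂ)) * etaTail 0 ^ 24 := by
    ext τ
    rw [ModularForm.discriminant_eq_q_prod, Pi.mul_apply, Pi.pow_apply]
    congr 1
    rw [etaTail, ← (multipliable_etaTail 0 τ).tprod_pow 24]
  have hp : ∀ m : ℕ, IsBoundedAtImInfty (etaTail 0 ^ m) ∧
      qExpansion 1 (etaTail 0 ^ m) = qExpansion 1 (etaTail 0) ^ m := by
    intro m
    induction m with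
    | zero => exact ⟨const_boundedAtFilter _ (1 : ℂ), by simp [qExpansion_one]⟩
    | succ m ih =>
      rw [pow_succ (etaTail 0)]
      exact ⟨ih.1.mul (etaTail_bounded 0), by
        rw [qExpansion_mul_of_mem (pow_mem (etaTail_mem 0) m) (etaTail_mem 0) ih.1
          (etaTail_bounded 0), ih.2, pow_succ]⟩
  rw [he, qExpansion_mul_of_mem qpar_mem_cuspRing (pow_mem (etaTail_mem 0) 24) qpar_bounded
    (hp 24).1, (hp 24).2, qExpansion_qpar, qExpansion_etaTail_zero, ModularCurve.dedekindEtaUnit,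
    map_pow]

end FermatAgent.ModFun

end
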